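/-
S25, block CECH, leaf K1a (helper910): the degree bound.
`H⁰(L(m∞)) = ker (d m)` of a two-chart Čech datum is contained in a finitely generated
`A`-submodule of `N0 × N1`.
-/
import Fermat.Agent.S25.H10.CechDefs

set_option autoImplicit false

namespace Fermat.Agent.S25.H910

open Polynomial Fermat.Agent.S25.H10

universe u v

section Vec

variable {A : Type u} [CommRing A]

/-- Vectors of polynomials of degree `≤ d`. -/
noncomputable def vecDegLE (A : Type u) [CommRing A] (n d : ℕ) : Submodule A (Fin n → A[X]) :=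
  Submodule.pi Set.univ (fun _ => Polynomial.degreeLE A (d : WithBot ℕ))

theorem mem_vecDegLE {n d : ℕ} {w : Fin n → A[X]} :
    w ∈ vecDegLE A n d ↔ ∀ i, ∀ t, d < t → (w i).coeff t = 0 := by
  simp only [vecDegLE, Submodule.mem_pi, Set.mem_univ, true_imp_iff, Polynomial.mem_degreeLE,
    Polynomial.degree_le_iff_coeff_zero, Nat.cast_lt]

theorem vecDegLE_fg (n d : ℕ) : (vecDegLE A n d).FG := by
  classical
  refine Submodule.fg_pi fun i => ?_
  rw [Polynomial.degreeLE_eq_span_X_pow]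
  exact Submodule.fg_span (Finset.finite_toSet _)

theorem vecDegLE_mono {n d d' : ℕ} (h : d ≤ d') : vecDegLE A n d ≤ vecDegLE A n d' := by
  intro w hw
  rw [mem_vecDegLE] at hw ⊢
  exact fun i t ht => hw i t (lt_of_le_of_lt h ht)

theorem X_pow_smul_mem_vecDegLE {n d k : ℕ} {w : Fin n → A[X]} (hw : w ∈ vecDegLE A n d) :
    (X ^ k : A[X]) • w ∈ vecDegLE A n (k + d) := by
  rw [mem_vecDegLE] at hw ⊢
  intro i t ht
  have h7 : t = (t - k) + k := by omega
  rw [Pi.smul_apply, smul_eq_mul, h7, Polynomial.coeff_X_pow_mul]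
  exact hw i _ (by omega)

theorem exists_mem_vecDegLE {n : ℕ} (w : Fin n → A[X]) : ∃ e : ℕ, w ∈ vecDegLE A n e := by
  refine ⟨Finset.univ.sup fun i => (w i).natDegree, ?_⟩
  rw [mem_vecDegLE]
  intro i t ht
  apply Polynomial.coeff_eq_zero_of_natDegree_lt
  exact lt_of_le_of_lt (Finset.le_sup (f := fun i => (w i).natDegree) (Finset.mem_univ i)) ht

/-- Decomposition of a vector of polynomials of degree `≤ e` into monomial vectors. -/
theorem vec_eq_sum {n e : ℕ} {w : Fin n → A[X]} (hw : w ∈ vecDegLE A n e) :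
    w = ∑ j : Fin n, ∑ i ∈ Finset.range (e + 1),
      (w j).coeff i • ((X ^ i : A[X]) • (Pi.single j (1 : A[X]) : Fin n → A[X])) := by
  classical
  rw [mem_vecDegLE] at hw
  funext j'
  rw [Finset.sum_apply]
  simp only [Finset.sum_apply, Pi.smul_apply, Pi.single_apply, smul_eq_mul, mul_ite, mul_one,
    mul_zero, smul_ite, smul_zero]
  rw [Finset.sum_eq_single j']
  · simp only [if_true]
    have hdeg : (w j').natDegree < e + 1 := by
      rw [Nat.lt_succ_iff, Polynomial.natDegree_le_iff_coeff_eq_zero]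
      exact fun t ht => hw j' t ht
    conv_lhs => rw [Polynomial.as_sum_range' (w j') (e + 1) hdeg]
    refine Finset.sum_congr rfl fun i _ => ?_
    rw [← Polynomial.C_mul_X_pow_eq_monomial, Polynomial.smul_eq_C_mul]
  · intro j _ hj
    refine Finset.sum_eq_zero fun i _ => ?_
    rw [if_neg (Ne.symm hj)]
  · intro h
    exact absurd (Finset.mem_univ j') h

end Vec

section Ops

variable {A : Type u} [CommRing A] {N : Type v} [AddCommGroup N] [Module A N]
  {E : Module.End A N}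

theorem iota_pow {n : ℕ} (ι : N →ₗ[A] (Fin n → A[X]))
    (hι : ∀ v, ι (E v) = (X : A[X]) • ι v) (k : ℕ) (v : N) :
    ι ((E ^ k) v) = (X ^ k : A[X]) • ι v := by
  induction k generalizing v with
  | zero => simp
  | succ k ih => rw [pow_succ, Module.End.mul_apply, ih, hι, smul_smul, ← pow_succ]

theorem pi_pow {n : ℕ} (π : (Fin n → A[X]) →ₗ[A] N)
    (hπ : ∀ w, π ((X : A[X]) • w) = E (π w)) (k : ℕ) (w : Fin n → A[X]) :
    π ((X ^ k : A[X]) • w) = (E ^ k) (π w) := by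
  induction k generalizing w with
  | zero => simp
  | succ k ih => rw [pow_succ', mul_smul, hπ, ih, ← Module.End.mul_apply, ← pow_succ']

end Ops

section Bound

variable {A : Type u} [CommRing A] {N0 N1 N01 : Type v}
  [AddCommGroup N0] [AddCommGroup N1] [AddCommGroup N01]
  [Module A N0] [Module A N1] [Module A N01]

/-- The datum with the two charts exchanged. -/
def swapOps (D : CechOps A N0 N1 N01) : CechOps A N1 N0 N01 where
  X0 := D.Y1
  Y1 := D.X0
  T := D.Tinv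
  Tinv := D.T
  r0 := D.r1
  r1 := D.r0
  T_mul_Tinv := D.Tinv_mul_T
  Tinv_mul_T := D.T_mul_Tinv
  r0_X0 := D.r1_Y1
  r1_Y1 := D.r0_X0
  loc0 := D.loc1
  loc1 := D.loc0

theorem mem_H0_swapOps (D : CechOps A N0 N1 N01) (m : ℕ) (a : N0) (b : N1) :
    (b, a) ∈ (swapOps D).H0 m ↔ (a, b) ∈ D.H0 m := by
  rw [CechOps.mem_ker_d, CechOps.mem_ker_d]
  show D.r1 b = (D.Tinv ^ m) (D.r0 a) ↔ D.r0 a = (D.T ^ m) (D.r1 b)
  constructor
  · intro h
    rw [h, D.T_pow_Tinv_pow_apply]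
  · intro h
    rw [h, D.Tinv_pow_T_pow_apply]

/-- One-sided degree bound: the first components of `H⁰(L(m∞))` lie in a finitely generated
`A`-submodule of `N0`. -/
theorem exists_fg_fst_bound (D : CechOps A N0 N1 N01) (h0 : IsFGProj D.X0)
    (h1 : IsFGProj D.Y1) (hr0 : Function.Injective D.r0) (m : ℕ) :
    ∃ M0 : Submodule A N0, M0.FG ∧ ∀ p : N0 × N1, p ∈ D.H0 m → p.1 ∈ M0 := by
  obtain ⟨n0, ι0, π0, hπι0, hι0, hπ0⟩ := h0
  obtain ⟨n1, ι1, π1, hπι1, hι1, hπ1⟩ := h1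
  -- Step A: a common exponent
  have hA : ∃ K : ℕ, ∀ j : Fin n1, ∃ nj : N0,
      (D.T ^ K) (D.r1 (π1 (Pi.single j 1))) = D.r0 nj := by
    choose k nn hk using fun j : Fin n1 => D.loc0 (D.r1 (π1 (Pi.single j 1)))
    refine ⟨Finset.univ.sup k, fun j => ⟨(D.X0 ^ (Finset.univ.sup k - k j)) (nn j), ?_⟩⟩
    have hle : k j ≤ Finset.univ.sup k := Finset.le_sup (Finset.mem_univ j)
    rw [D.r0_X0_pow, ← hk j, ← Module.End.mul_apply, ← pow_add, Nat.sub_add_cancel hle]
  obtain ⟨K, hK⟩ := hA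
  choose nn hnn using hK
  -- Step B: a common degree
  obtain ⟨Dg, hDg⟩ : ∃ Dg : ℕ, ∀ j, ι0 (nn j) ∈ vecDegLE A n0 Dg := by
    choose dj hdj using fun j => exists_mem_vecDegLE (ι0 (nn j))
    exact ⟨Finset.univ.sup dj, fun j =>
      vecDegLE_mono (Finset.le_sup (Finset.mem_univ j)) (hdj j)⟩
  refine ⟨(vecDegLE A n0 (m + Dg)).map π0, (vecDegLE_fg n0 (m + Dg)).map π0, ?_⟩
  rintro ⟨a, b⟩ hab
  rw [CechOps.mem_ker_d] at hab
  simp only at hab
  -- Step C
  have hC : ∀ e : ℕ, ∀ w ∈ vecDegLE A n1 e, ∃ n : N0,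
      ι0 n ∈ vecDegLE A n0 (e + Dg) ∧ (D.T ^ (K + e)) (D.r1 (π1 w)) = D.r0 n := by
    intro e
    let S : Submodule A (Fin n1 → A[X]) :=
      Submodule.comap ((D.T ^ (K + e)) ∘ₗ D.r1 ∘ₗ π1)
        (Submodule.map D.r0 (Submodule.comap ι0 (vecDegLE A n0 (e + Dg))))
    have hgen : ∀ (j : Fin n1) (i : ℕ), i ≤ e →
        ((X ^ i : A[X]) • (Pi.single j (1 : A[X]) : Fin n1 → A[X])) ∈ S := by
      intro j i hi
      refine ⟨(D.X0 ^ (e - i)) (nn j), ?_, ?_⟩
      · show ι0 ((D.X0 ^ (e - i)) (nn j)) ∈ vecDegLE A n0 (e + Dg)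
        rw [iota_pow ι0 hι0]
        exact vecDegLE_mono (by omega) (X_pow_smul_mem_vecDegLE (hDg j))
      · show D.r0 _ = (D.T ^ (K + e)) (D.r1 (π1 _))
        rw [pi_pow π1 hπ1, D.r1_Y1_pow, D.r0_X0_pow, ← hnn j]
        have hpow : (D.T ^ (K + e)) = D.T ^ (e - i) * D.T ^ K * D.T ^ i := by
          rw [← pow_add, ← pow_add]
          congr 1
          omega
        rw [hpow, Module.End.mul_apply, D.T_pow_Tinv_pow_apply, Module.End.mul_apply]
    intro w hw
    have hwS : w ∈ S := by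
      rw [vec_eq_sum hw]
      exact Submodule.sum_mem _ fun j _ => Submodule.sum_mem _ fun i hi =>
        Submodule.smul_mem _ _ (hgen j i (by simpa [Nat.lt_succ_iff] using hi))
    obtain ⟨n, hn1, hn2⟩ := hwS
    exact ⟨n, hn1, hn2.symm⟩
  -- Step D
  obtain ⟨e, he⟩ := exists_mem_vecDegLE (ι1 b)
  obtain ⟨n, hn1, hn2⟩ := hC e (ι1 b) he
  have hb : π1 (ι1 b) = b := LinearMap.congr_fun hπι1 b
  rw [hb] at hn2
  have h3 : (D.X0 ^ (K + e)) a = (D.X0 ^ m) n := by
    apply hr0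
    rw [D.r0_X0_pow, D.r0_X0_pow, hab, ← hn2, ← Module.End.mul_apply, ← Module.End.mul_apply,
      ← pow_add, ← pow_add, add_comm]
  have h4 : (X ^ (K + e) : A[X]) • ι0 a = (X ^ m : A[X]) • ι0 n := by
    rw [← iota_pow ι0 hι0, ← iota_pow ι0 hι0, h3]
  refine ⟨ι0 a, ?_, LinearMap.congr_fun hπι0 a⟩
  rw [SetLike.mem_coe, mem_vecDegLE]
  intro i t ht
  have h5 := congrFun h4 i
  simp only [Pi.smul_apply, smul_eq_mul] at h5
  have h6 : (ι0 a i).coeff t = ((X ^ (K + e) : A[X]) * ι0 a i).coeff (t + (K + e)) := by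
    rw [Polynomial.coeff_X_pow_mul]
  rw [h6, h5]
  have h7 : t + (K + e) = (t + (K + e) - m) + m := by omega
  rw [h7, Polynomial.coeff_X_pow_mul]
  exact (mem_vecDegLE.mp hn1) i _ (by omega)

/-- **K1a (degree bound).** `H⁰(L(m∞))` is contained in a finitely generated `A`-submodule. -/
theorem exists_fg_ge_H0 (D : CechOps A N0 N1 N01) (h0 : IsFGProj D.X0) (h1 : IsFGProj D.Y1)
    (hr0 : Function.Injective D.r0) (hr1 : Function.Injective D.r1)
    (m : ℕ) : ∃ M : Submodule A (N0 × N1), M.FG ∧ D.H0 m ≤ M := by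
  obtain ⟨M0, hM0, hM0'⟩ := exists_fg_fst_bound D h0 h1 hr0 m
  obtain ⟨M1, hM1, hM1'⟩ := exists_fg_fst_bound (swapOps D) h1 h0 hr1 m
  refine ⟨M0.prod M1, hM0.prod hM1, ?_⟩
  rintro ⟨a, b⟩ hab
  exact ⟨hM0' (a, b) hab, hM1' (b, a) ((mem_H0_swapOps D m a b).mpr hab)⟩

end Bound

end Fermat.Agent.S25.H910
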