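/-
S25, block CECH, leaves K1 (assembly) and K6 (finite model), helper910.
Imports the hand-ins K0 (helper130), K1a (helper910), K1b (helper490), K2 (helper550),
K3 (helper730), K5 (helper670).
-/
import Fermat.Agent.S25.H130.CechK0
import Fermat.Agent.S25.H490.ProjN01
import Fermat.Agent.S25.H550.CechK2
import Fermat.Agent.S25.H730.K3
import Fermat.Agent.S25.H670.CechBaseChange
import Fermat.Agent.S25.H910.DegreeBound

set_option autoImplicit false

namespace Fermat.Agent.S25.H910

open Polynomial TensorProduct Fermat.Agent.S25.H10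

universe u v w

variable {A : Type u} [CommRing A] {N0 N1 N01 : Type v}
  [AddCommGroup N0] [AddCommGroup N1] [AddCommGroup N01]
  [Module A N0] [Module A N1] [Module A N01]

/-- K1c. A retract contained in a finitely generated submodule is finitely generated. -/
theorem fg_of_le_fg_of_retract {M : Type v} [AddCommGroup M] [Module A M]
    (H M' : Submodule A M) (hM' : M'.FG) (hle : H ≤ M')
    (p : M →ₗ[A] H) (hp : ∀ h : H, p h = h) : H.FG := by
  have hH : H = M'.map (H.subtype ∘ₗ p) := by
    apply le_antisymm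
    · intro h hh
      refine ⟨h, hle hh, ?_⟩
      have := hp ⟨h, hh⟩
      simp only [LinearMap.coe_comp, Submodule.coe_subtype, Function.comp_apply]
      rw [this]
    · rintro _ ⟨x, _, rfl⟩
      exact (p x).2
  rw [hH]
  exact hM'.map _

/-- **K1.** If the twisted differential `d m` is surjective then it has an `A`-linear section,
and `H⁰(L(m∞))` is a finitely generated projective `A`-module. -/
theorem H0_finite_projective_of_surjective (D : CechOps A N0 N1 N01)
    (h0 : IsFGProj D.X0) (h1 : IsFGProj D.Y1)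
    (hr0 : Function.Injective D.r0) (hr1 : Function.Injective D.r1) (m : ℕ)
    (hsurj : Function.Surjective (D.d m)) :
    (∃ s : N01 →ₗ[A] N0 × N1, D.d m ∘ₗ s = LinearMap.id) ∧
      Module.Finite A (D.H0 m) ∧ Module.Projective A (D.H0 m) := by
  have hP01 : Module.Projective A N01 := H490.projective_N01 D h0 hr0
  obtain ⟨s, hs⟩ := Module.projective_lifting_property (D.d m) LinearMap.id hsurj
  refine ⟨⟨s, hs⟩, ?_⟩
  have hs' : ∀ z, D.d m (s z) = z := fun z => LinearMap.congr_fun hs z
  let p : (N0 × N1) →ₗ[A] D.H0 m :=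
    LinearMap.codRestrict (D.H0 m) (LinearMap.id - s ∘ₗ D.d m) (by
      intro x
      rw [LinearMap.mem_ker, LinearMap.sub_apply, LinearMap.id_apply, LinearMap.comp_apply,
        map_sub, hs', sub_self])
  have hp : ∀ h : D.H0 m, p h = h := by
    intro h
    apply Subtype.ext
    have hh : D.d m (h : N0 × N1) = 0 := h.2
    show (h : N0 × N1) - s (D.d m h) = h
    rw [hh, map_zero, sub_zero]
  obtain ⟨M, hM, hle⟩ := exists_fg_ge_H0 D h0 h1 hr0 hr1 m
  have hfg : (D.H0 m).FG := fg_of_le_fg_of_retract _ M hM hle p hp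
  have : Module.Projective A N0 := H130.projective_of_isFGProj h0
  have : Module.Projective A N1 := H130.projective_of_isFGProj h1
  refine ⟨Module.Finite.iff_fg.mpr hfg, ?_⟩
  exact Module.Projective.of_split (D.H0 m).subtype p (LinearMap.ext fun h => hp h)

/-! ### Kernel and cokernel of `δ` -/

/-- `ker δ_m ≃ H⁰(L)` (via `incl`). -/
theorem nonempty_ker_δ_equiv (D : CechOps A N0 N1 N01) (hY : Function.Injective D.Y1) (m : ℕ) :
    Nonempty (LinearMap.ker (D.δ m) ≃ₗ[A] D.H0 0) :=
  ⟨((LinearEquiv.ofInjective (D.incl m) (H730.incl_injective D hY m)).trans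
      (LinearEquiv.ofEq _ _ (H730.range_incl_eq_ker_δ D m))).symm⟩

/-- `coker δ_m ≃ H¹(L)` (via `conn`) when `H¹(L(m∞)) = 0`. -/
theorem nonempty_coker_δ_equiv (D : CechOps A N0 N1 N01) (m : ℕ)
    (hsurj : Function.Surjective (D.d m)) :
    Nonempty (((N1 ⧸ LinearMap.range (D.Y1 ^ m)) ⧸ LinearMap.range (D.δ m)) ≃ₗ[A] D.H1 0) :=
  ⟨(Submodule.quotEquivOfEq _ _ (H730.range_δ_eq_ker_conn D m)).trans
      (LinearMap.quotKerEquivOfSurjective (D.conn m) (H730.conn_surjective D m hsurj))⟩

section BaseChange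

variable (A' : Type w) [CommRing A'] [Algebra A A']

/-- `H⁰` of the base-changed datum is the kernel of the base-changed differential. -/
theorem nonempty_H0_baseChange_equiv (D : CechOps A N0 N1 N01) (m : ℕ) :
    Nonempty ((D.baseChange A').H0 m ≃ₗ[A'] LinearMap.ker ((D.d m).baseChange A')) := by
  have h := H670.baseChange_d A' D m
  have hk : LinearMap.ker ((D.d m).baseChange A') =
      Submodule.comap (TensorProduct.prodRight A A' A' N0 N1).toLinearMap
        (LinearMap.ker ((D.baseChange A').d m)) := by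
    rw [← h, LinearMap.ker_comp]
  exact ⟨((LinearEquiv.ofEq _ _ hk).trans
    (LinearEquiv.ofSubmodule' (TensorProduct.prodRight A A' A' N0 N1) _)).symm⟩

/-- `H¹` of the base-changed datum is the cokernel of the base-changed differential. -/
theorem nonempty_H1_baseChange_equiv (D : CechOps A N0 N1 N01) (m : ℕ) :
    Nonempty ((D.baseChange A').H1 m ≃ₗ[A']
      ((A' ⊗[A] N01) ⧸ LinearMap.range ((D.d m).baseChange A'))) := by
  have h := H670.baseChange_d A' D m
  have hr : LinearMap.range ((D.baseChange A').d m) =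
      LinearMap.range ((D.d m).baseChange A') := by
    rw [← h, LinearMap.range_comp, LinearEquiv.range, Submodule.map_top]
  exact ⟨Submodule.quotEquivOfEq _ _ hr⟩

theorem d_baseChange_surjective (D : CechOps A N0 N1 N01) (m : ℕ)
    (hsurj : Function.Surjective (D.d m)) :
    Function.Surjective ((D.baseChange A').d m) := by
  have h := H670.baseChange_d A' D m
  have h2 : Function.Surjective ((D.d m).baseChange A') := by
    rw [LinearMap.baseChange_eq_ltensor]
    exact LinearMap.lTensor_surjective A' hsurj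
  intro z
  obtain ⟨w, hw⟩ := h2 z
  refine ⟨TensorProduct.prodRight A A' A' N0 N1 w, ?_⟩
  rw [← hw, ← h]
  rfl

/-- The comparison map `A' ⊗ H⁰(L(m∞)) → H⁰(L'(m∞))`. -/
noncomputable def alphaMap (D : CechOps A N0 N1 N01) (m : ℕ) :
    A' ⊗[A] (D.H0 m) →ₗ[A'] (D.baseChange A').H0 m :=
  LinearMap.codRestrict _
    ((TensorProduct.prodRight A A' A' N0 N1).toLinearMap ∘ₗ (D.H0 m).subtype.baseChange A') (by
      intro z
      rw [LinearMap.mem_ker]
      have h := H670.baseChange_d A' D m
      rw [LinearMap.comp_apply, ← LinearMap.comp_apply ((D.baseChange A').d m), h,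
        ← LinearMap.comp_apply, ← LinearMap.baseChange_comp, LinearMap.comp_ker_subtype,
        LinearMap.baseChange_zero]
      rfl)

theorem alphaMap_coe (D : CechOps A N0 N1 N01) (m : ℕ) (z : A' ⊗[A] (D.H0 m)) :
    ((alphaMap A' D m z : (D.baseChange A').H0 m) : (A' ⊗[A] N0) × (A' ⊗[A] N1)) =
      TensorProduct.prodRight A A' A' N0 N1 ((D.H0 m).subtype.baseChange A' z) := rfl

theorem alphaMap_bijective (D : CechOps A N0 N1 N01) (h0 : IsFGProj D.X0)
    (hr0 : Function.Injective D.r0) (m : ℕ) (hsurj : Function.Surjective (D.d m)) :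
    Function.Bijective (alphaMap A' D m) := by
  obtain ⟨hinj, hrange⟩ := H670.H0_baseChange_bijective A' D h0 hr0 m hsurj
  constructor
  · intro z z' hzz'
    apply hinj
    apply (TensorProduct.prodRight A A' A' N0 N1).injective
    rw [← alphaMap_coe, ← alphaMap_coe, hzz']
  · rintro ⟨w, hw⟩
    have hw' : (TensorProduct.prodRight A A' A' N0 N1).symm w ∈
        LinearMap.ker ((D.d m).baseChange A') := by
      rw [LinearMap.mem_ker, ← H670.baseChange_d A' D m, LinearMap.comp_apply]
      simp only [LinearEquiv.coe_coe, LinearEquiv.apply_symm_apply]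
      exact hw
    rw [← hrange] at hw'
    obtain ⟨z, hz⟩ := hw'
    refine ⟨z, Subtype.ext ?_⟩
    rw [alphaMap_coe, hz, LinearEquiv.apply_symm_apply]

/-- The comparison map `(A' ⊗ N1) / y^m → A' ⊗ (N1 / y^m)`. -/
noncomputable def gammaMap (D : CechOps A N0 N1 N01) (m : ℕ) :
    ((A' ⊗[A] N1) ⧸ LinearMap.range ((D.baseChange A').Y1 ^ m)) →ₗ[A']
      A' ⊗[A] (N1 ⧸ LinearMap.range (D.Y1 ^ m)) :=
  Submodule.liftQ _ ((LinearMap.range (D.Y1 ^ m)).mkQ.baseChange A') (by
    rintro _ ⟨w, rfl⟩
    rw [LinearMap.mem_ker]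
    show ((LinearMap.range (D.Y1 ^ m)).mkQ.baseChange A') (((D.Y1.baseChange A') ^ m) w) = 0
    rw [← LinearMap.baseChange_pow, ← LinearMap.comp_apply, ← LinearMap.baseChange_comp,
      LinearMap.range_mkQ_comp, LinearMap.baseChange_zero]
    rfl)

theorem gammaMap_mk (D : CechOps A N0 N1 N01) (m : ℕ) (w : A' ⊗[A] N1) :
    gammaMap A' D m (Submodule.Quotient.mk w) =
      (LinearMap.range (D.Y1 ^ m)).mkQ.baseChange A' w := rfl

theorem gammaMap_bijective (D : CechOps A N0 N1 N01) (m : ℕ) :
    Function.Bijective (gammaMap A' D m) := by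
  have hex : Function.Exact ((D.Y1 ^ m).baseChange A')
      ((LinearMap.range (D.Y1 ^ m)).mkQ.baseChange A') := by
    have := lTensor_exact A' (LinearMap.exact_map_mkQ_range (D.Y1 ^ m))
      (Submodule.mkQ_surjective _)
    exact this
  constructor
  · rw [← LinearMap.ker_eq_bot, LinearMap.ker_eq_bot']
    intro q hq
    obtain ⟨w, rfl⟩ := Submodule.Quotient.mk_surjective _ q
    rw [gammaMap_mk] at hq
    obtain ⟨w', hw'⟩ := (hex w).mp hq
    rw [Submodule.Quotient.mk_eq_zero]
    refine ⟨w', ?_⟩
    rw [← hw', LinearMap.baseChange_pow]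
    rfl
  · intro z
    have hs : Function.Surjective ((LinearMap.range (D.Y1 ^ m)).mkQ.baseChange A') := by
      rw [LinearMap.baseChange_eq_ltensor]
      exact LinearMap.lTensor_surjective A' (Submodule.mkQ_surjective _)
    obtain ⟨w, hw⟩ := hs z
    exact ⟨Submodule.Quotient.mk w, by rw [gammaMap_mk, hw]⟩

/-- Compatibility of `δ` with base change. -/
theorem gammaMap_δ_alphaMap (D : CechOps A N0 N1 N01) (m : ℕ) :
    gammaMap A' D m ∘ₗ (D.baseChange A').δ m ∘ₗ alphaMap A' D m = (D.δ m).baseChange A' := by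
  apply TensorProduct.AlgebraTensorModule.curry_injective
  ext h
  simp only [TensorProduct.AlgebraTensorModule.curry_apply, LinearMap.restrictScalars_comp,
    TensorProduct.curry_apply, LinearMap.coe_comp, LinearMap.coe_restrictScalars,
    Function.comp_apply, LinearMap.baseChange_tmul]
  rw [CechOps.δ_apply, alphaMap_coe, LinearMap.baseChange_tmul, Submodule.mkQ_apply,
    gammaMap_mk]
  simp only [Submodule.subtype_apply, TensorProduct.prodRight_tmul, LinearMap.baseChange_tmul]
  rfl

end BaseChange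

/-- **K6 (finite model).** -/
theorem exists_finite_model (D : CechOps A N0 N1 N01)
    (h0 : IsFGProj D.X0) (h1 : IsFGProj D.Y1)
    (hr0 : Function.Injective D.r0) (hr1 : Function.Injective D.r1) :
    ∃ m : ℕ, Function.Surjective (D.d m) ∧
      Module.Finite A (D.H0 m) ∧ Module.Projective A (D.H0 m) ∧
      Module.Finite A (N1 ⧸ LinearMap.range (D.Y1 ^ m)) ∧
      Module.Projective A (N1 ⧸ LinearMap.range (D.Y1 ^ m)) ∧
      ∀ (A' : Type (max u v)) [CommRing A'] [Algebra A A'],
        Nonempty (LinearMap.ker ((D.δ m).baseChange A') ≃ₗ[A']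
          LinearMap.ker ((D.d 0).baseChange A')) ∧
        Nonempty (((A' ⊗[A] (N1 ⧸ LinearMap.range (D.Y1 ^ m))) ⧸
            LinearMap.range ((D.δ m).baseChange A')) ≃ₗ[A']
          ((A' ⊗[A] N01) ⧸ LinearMap.range ((D.d 0).baseChange A'))) := by
  obtain ⟨m0, hm0⟩ := H550.exists_forall_d_surjective D (H130.isFG_of_isFGProj h0)
  have hsurj := hm0 m0 le_rfl
  obtain ⟨-, hfin, hproj⟩ := H0_finite_projective_of_surjective D h0 h1 hr0 hr1 m0 hsurj
  obtain ⟨hqf, hqp⟩ := H130.quotient_pow_finite_projective h1 m0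
  refine ⟨m0, hsurj, hfin, hproj, hqf, hqp, ?_⟩
  intro A' _ _
  have h1' : IsFGProj (D.baseChange A').Y1 := H670.isFGProj_baseChange A' h1
  have hY' : Function.Injective (D.baseChange A').Y1 := H130.injective_of_isFGProj h1'
  have hsurj' := d_baseChange_surjective A' D m0 hsurj
  have hα := alphaMap_bijective A' D h0 hr0 m0 hsurj
  have hγ := gammaMap_bijective A' D m0
  have hcomm := gammaMap_δ_alphaMap A' D m0
  let αe := LinearEquiv.ofBijective (alphaMap A' D m0) hα
  let γe := LinearEquiv.ofBijective (gammaMap A' D m0) hγ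
  constructor
  · -- kernels
    have hk : LinearMap.ker ((D.δ m0).baseChange A') =
        Submodule.comap αe.toLinearMap (LinearMap.ker ((D.baseChange A').δ m0)) := by
      rw [← hcomm]
      ext z
      simp only [LinearMap.mem_ker, Submodule.mem_comap, LinearMap.comp_apply]
      constructor
      · intro hz
        exact hγ.1 (hz.trans (map_zero _).symm)
      · intro hz
        have hz' : (D.baseChange A').δ m0 (alphaMap A' D m0 z) = 0 := hz
        rw [hz', map_zero]
    obtain ⟨e1⟩ := nonempty_ker_δ_equiv (D.baseChange A') hY' m0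
    obtain ⟨e2⟩ := nonempty_H0_baseChange_equiv A' D 0
    exact ⟨(((LinearEquiv.ofEq _ _ hk).trans (LinearEquiv.ofSubmodule' αe _)).trans e1).trans e2⟩
  · -- cokernels
    have hr : Submodule.map γe.toLinearMap (LinearMap.range ((D.baseChange A').δ m0)) =
        LinearMap.range ((D.δ m0).baseChange A') := by
      rw [← hcomm, LinearMap.range_comp, LinearMap.range_comp]
      have : LinearMap.range (alphaMap A' D m0) = ⊤ := LinearMap.range_eq_top.mpr hα.2
      rw [this, Submodule.map_top]
      rfl
    obtain ⟨e1⟩ := nonempty_coker_δ_equiv (D.baseChange A') m0 hsurj'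
    obtain ⟨e2⟩ := nonempty_H1_baseChange_equiv A' D 0
    exact ⟨((Submodule.Quotient.equiv _ _ γe hr).symm.trans e1).trans e2⟩

end Fermat.Agent.S25.H910
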