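/-
S25, block DEGREE (helper910): the fibrewise Euler characteristic of a two-chart Čech datum
over an arbitrary ring `A` is the difference of the ranks of two finitely generated projective
`A`-modules.  Consequences: it depends only on the prime `ker (A → K)` (invariance under field
extension, blueprint D2) and it is locally constant on `Spec A` (blueprint D9).
-/
import Fermat.Agent.S25.H910.FiniteModel

set_option autoImplicit false

namespace Fermat.Agent.S25.H910

open Polynomial TensorProduct Fermat.Agent.S25.H10 Module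

universe u v w

variable {A : Type u} [CommRing A] {N0 N1 N01 : Type v}
  [AddCommGroup N0] [AddCommGroup N1] [AddCommGroup N01]
  [Module A N0] [Module A N1] [Module A N01]

/-- **Finite model, base-change part, for a fixed twist `m` and any universe.**  If `d m` is
surjective, then after every base change `A → A'` the kernel and cokernel of `A' ⊗ δ m` are those
of `A' ⊗ d 0`. -/
theorem finite_model_baseChange (D : CechOps A N0 N1 N01)
    (h0 : IsFGProj D.X0) (h1 : IsFGProj D.Y1) (hr0 : Function.Injective D.r0) (m : ℕ)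
    (hsurj : Function.Surjective (D.d m)) (A' : Type w) [CommRing A'] [Algebra A A'] :
    Nonempty (LinearMap.ker ((D.δ m).baseChange A') ≃ₗ[A']
        LinearMap.ker ((D.d 0).baseChange A')) ∧
      Nonempty (((A' ⊗[A] (N1 ⧸ LinearMap.range (D.Y1 ^ m))) ⧸
          LinearMap.range ((D.δ m).baseChange A')) ≃ₗ[A']
        ((A' ⊗[A] N01) ⧸ LinearMap.range ((D.d 0).baseChange A'))) := by
  have h1' : IsFGProj (D.baseChange A').Y1 := H670.isFGProj_baseChange A' h1
  have hY' : Function.Injective (D.baseChange A').Y1 := H130.injective_of_isFGProj h1'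
  have hsurj' := d_baseChange_surjective A' D m hsurj
  have hα := alphaMap_bijective A' D h0 hr0 m hsurj
  have hγ := gammaMap_bijective A' D m
  have hcomm := gammaMap_δ_alphaMap A' D m
  let αe := LinearEquiv.ofBijective (alphaMap A' D m) hα
  let γe := LinearEquiv.ofBijective (gammaMap A' D m) hγ
  constructor
  · have hk : LinearMap.ker ((D.δ m).baseChange A') =
        Submodule.comap αe.toLinearMap (LinearMap.ker ((D.baseChange A').δ m)) := by
      rw [← hcomm]
      ext z
      simp only [LinearMap.mem_ker, Submodule.mem_comap, LinearMap.comp_apply]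
      constructor
      · intro hz
        exact hγ.1 (hz.trans (map_zero _).symm)
      · intro hz
        have hz' : (D.baseChange A').δ m (alphaMap A' D m z) = 0 := hz
        rw [hz', map_zero]
    obtain ⟨e1⟩ := nonempty_ker_δ_equiv (D.baseChange A') hY' m
    obtain ⟨e2⟩ := nonempty_H0_baseChange_equiv A' D 0
    exact ⟨(((LinearEquiv.ofEq _ _ hk).trans (LinearEquiv.ofSubmodule' αe _)).trans e1).trans e2⟩
  · have hr : Submodule.map γe.toLinearMap (LinearMap.range ((D.baseChange A').δ m)) =
        LinearMap.range ((D.δ m).baseChange A') := by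
      rw [← hcomm, LinearMap.range_comp, LinearMap.range_comp]
      have : LinearMap.range (alphaMap A' D m) = ⊤ := LinearMap.range_eq_top.mpr hα.2
      rw [this, Submodule.map_top]
      rfl
    obtain ⟨e1⟩ := nonempty_coker_δ_equiv (D.baseChange A') m hsurj'
    obtain ⟨e2⟩ := nonempty_H1_baseChange_equiv A' D 0
    exact ⟨((Submodule.Quotient.equiv _ _ γe hr).symm.trans e1).trans e2⟩

/-- The candidate Euler characteristic function on `Spec A`: `rank H⁰(L(m∞)) - rank N1/y^m N1`. -/
noncomputable def eulerFun (D : CechOps A N0 N1 N01) (m : ℕ) : PrimeSpectrum A → ℤ := fun q =>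
  (rankAtStalk (D.H0 m) q : ℤ) - (rankAtStalk (N1 ⧸ LinearMap.range (D.Y1 ^ m)) q : ℤ)

/-- **D9 (core).** The Euler characteristic function is locally constant on `Spec A`. -/
theorem isLocallyConstant_eulerFun (D : CechOps A N0 N1 N01)
    (h0 : IsFGProj D.X0) (h1 : IsFGProj D.Y1)
    (hr0 : Function.Injective D.r0) (hr1 : Function.Injective D.r1) (m : ℕ)
    (hsurj : Function.Surjective (D.d m)) : IsLocallyConstant (eulerFun D m) := by
  obtain ⟨-, hfin, hproj⟩ := H0_finite_projective_of_surjective D h0 h1 hr0 hr1 m hsurj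
  obtain ⟨hqf, hqp⟩ := H130.quotient_pow_finite_projective h1 m
  have hfp1 : Module.FinitePresentation A (D.H0 m) := Module.finitePresentation_of_projective _ _
  have hfp2 : Module.FinitePresentation A (N1 ⧸ LinearMap.range (D.Y1 ^ m)) :=
    Module.finitePresentation_of_projective _ _
  have hP : IsLocallyConstant (rankAtStalk (R := A) (D.H0 m)) := isLocallyConstant_rankAtStalk
  have hQ : IsLocallyConstant (rankAtStalk (R := A) (N1 ⧸ LinearMap.range (D.Y1 ^ m))) :=
    isLocallyConstant_rankAtStalk
  intro s
  have hP' := hP.prodMk hQ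
  have := hP' ((fun pq : ℕ × ℕ => ((pq.1 : ℤ) - (pq.2 : ℤ))) ⁻¹' s)
  exact this

/-- **D2 + D9 (core).** For every field `K` over `A` (any universe), `K ⊗ H⁰` and `K ⊗ H¹` of the
Čech complex are finite-dimensional and the Euler characteristic `dim H⁰ - dim H¹` is the value of
`eulerFun` at the prime `ker (A → K)`. -/
theorem euler_field (D : CechOps A N0 N1 N01)
    (h0 : IsFGProj D.X0) (h1 : IsFGProj D.Y1)
    (hr0 : Function.Injective D.r0) (hr1 : Function.Injective D.r1) (m : ℕ)
    (hsurj : Function.Surjective (D.d m)) (K : Type w) [Field K] [Algebra A K] :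
    Module.Finite K (LinearMap.ker ((D.d 0).baseChange K)) ∧
      Module.Finite K ((K ⊗[A] N01) ⧸ LinearMap.range ((D.d 0).baseChange K)) ∧
      (finrank K (LinearMap.ker ((D.d 0).baseChange K)) : ℤ) -
          (finrank K ((K ⊗[A] N01) ⧸ LinearMap.range ((D.d 0).baseChange K)) : ℤ) =
        eulerFun D m (PrimeSpectrum.comap (algebraMap A K) ⟨⊥, Ideal.isPrime_bot⟩) := by
  obtain ⟨-, hfin, hproj⟩ := H0_finite_projective_of_surjective D h0 h1 hr0 hr1 m hsurj
  obtain ⟨hqf, hqp⟩ := H130.quotient_pow_finite_projective h1 m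
  obtain ⟨⟨e1⟩, ⟨e2⟩⟩ := finite_model_baseChange D h0 h1 hr0 m hsurj K
  have hf1 : Module.Finite K (LinearMap.ker ((D.d 0).baseChange K)) := Module.Finite.equiv e1
  have hf2 : Module.Finite K ((K ⊗[A] N01) ⧸ LinearMap.range ((D.d 0).baseChange K)) :=
    Module.Finite.equiv e2
  refine ⟨hf1, hf2, ?_⟩
  have hrn := LinearMap.finrank_range_add_finrank_ker ((D.δ m).baseChange K)
  have hq := Submodule.finrank_quotient_add_finrank (LinearMap.range ((D.δ m).baseChange K))
  have hP : finrank K (K ⊗[A] (D.H0 m)) = rankAtStalk (D.H0 m)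
      (PrimeSpectrum.comap (algebraMap A K) ⟨⊥, Ideal.isPrime_bot⟩) := by
    rw [← rankAtStalk_baseChange, rankAtStalk_eq_finrank_of_free]
    rfl
  have hQ : finrank K (K ⊗[A] (N1 ⧸ LinearMap.range (D.Y1 ^ m))) =
      rankAtStalk (N1 ⧸ LinearMap.range (D.Y1 ^ m))
        (PrimeSpectrum.comap (algebraMap A K) ⟨⊥, Ideal.isPrime_bot⟩) := by
    rw [← rankAtStalk_baseChange, rankAtStalk_eq_finrank_of_free]
    rfl
  rw [← e1.finrank_eq, ← e2.finrank_eq, eulerFun, ← hP, ← hQ]
  omega

/-- **D2 + D9, existential packaging.**  There is a locally constant function `χ` on `Spec A`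
computing the Euler characteristic of every fibre. -/
theorem exists_euler_locallyConstant (D : CechOps A N0 N1 N01)
    (h0 : IsFGProj D.X0) (h1 : IsFGProj D.Y1)
    (hr0 : Function.Injective D.r0) (hr1 : Function.Injective D.r1) :
    ∃ m : ℕ, Function.Surjective (D.d m) ∧ IsLocallyConstant (eulerFun D m) := by
  obtain ⟨m0, hm0⟩ := H550.exists_forall_d_surjective D (H130.isFG_of_isFGProj h0)
  exact ⟨m0, hm0 m0 le_rfl, isLocallyConstant_eulerFun D h0 h1 hr0 hr1 m0 (hm0 m0 le_rfl)⟩

end Fermat.Agent.S25.H910
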