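/-
S25, block DEGREE (helper910): bridge from the frozen gluing-data language (`DefsAlg`) to linear
base change.  For `CurveGD.IsBC φ G G'` the semilinear base-change maps are `A`-linear base
changes along `φ : A → K`, compatible with the Čech differentials.
-/
import Fermat.Agent.S25.DefsAlg

set_option autoImplicit false
set_option linter.style.haveILetI false

namespace Fermat.Agent.S25.H910

open TensorProduct Fermat.Agent.S25

universe u

section Abstract

variable {A K R R' : Type u} [CommRing A] [CommRing K] [CommRing R] [CommRing R']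
  [Algebra A K] [Algebra A R] [Algebra K R'] [Algebra A R'] [IsScalarTower A K R']

/-- A semilinear base change along `ρ : R → R'`, where `R' = K ⊗[A] R` is a pushout, is a linear
base change along `A → K`. -/
theorem exists_equiv_of_isSemilinearBaseChange (ρ : R →+* R')
    (hρA : ∀ a : A, ρ (algebraMap A R a) = algebraMap A R' a)
    (hpush : letI : Algebra R R' := ρ.toAlgebra
      haveI : IsScalarTower A R R' := IsScalarTower.of_algebraMap_eq fun a => (hρA a).symm
      Algebra.IsPushout A K R R')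
    {N N' : Type u} [AddCommGroup N] [Module R N] [Module A N] [IsScalarTower A R N]
    [AddCommGroup N'] [Module R' N'] [Module K N'] [IsScalarTower K R' N']
    (b : N →ₛₗ[ρ] N') (hb : IsSemilinearBaseChange ρ b) :
    ∃ E : K ⊗[A] N ≃ₗ[K] N', ∀ (c : K) (n : N), E (c ⊗ₜ[A] n) = c • b n := by
  letI : Algebra R R' := ρ.toAlgebra
  haveI : IsScalarTower A R R' := IsScalarTower.of_algebraMap_eq fun a => (hρA a).symm
  haveI : Algebra.IsPushout A K R R' := hpush
  letI : Module R N' := Module.compHom N' ρ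
  haveI : IsScalarTower R R' N' := ⟨fun r r' n => by
    change (ρ r * r') • n = ρ r • (r' • n); rw [mul_smul]⟩
  have hb' : IsBaseChange R' (show N →ₗ[R] N' from
    { toFun := fun n => b n
      map_add' := fun m n => b.map_add m n
      map_smul' := fun r n => LinearMap.map_smulₛₗ b r n }) := hb
  let e1 : K ⊗[A] N ≃ₗ[K] R' ⊗[R] N := (Algebra.IsPushout.cancelBaseChange A K R R' N).symm
  let e2 : R' ⊗[R] N ≃ₗ[K] N' := hb'.equiv.restrictScalars K
  refine ⟨e1.trans e2, fun c n => ?_⟩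
  show hb'.equiv ((Algebra.IsPushout.cancelBaseChange A K R R' N).symm (c ⊗ₜ[A] n)) = c • b n
  rw [Algebra.IsPushout.cancelBaseChange_symm_tmul, IsBaseChange.equiv_tmul]
  show algebraMap K R' c • b n = c • b n
  rw [algebraMap_smul]

end Abstract

section Concrete

variable {k : Type u} [Field k] {A K : Type u} [CommRing A] [CommRing K] [Algebra k A]
  [Algebra k K] [Algebra A K] [IsScalarTower k A K]

/-- The pushout square `A → K`, `A → A ⊗ B`, `K ⊗ B`. -/
theorem isPushout_tensorMapLeft (φ : A →ₐ[k] K) (hφ : ∀ a, φ a = algebraMap A K a)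
    (B : Type u) [CommRing B] [Algebra k B] :
    letI : Algebra (A ⊗[k] B) (K ⊗[k] B) := (tensorMapLeft k φ B).toAlgebra
    haveI : IsScalarTower A (A ⊗[k] B) (K ⊗[k] B) := IsScalarTower.of_algebraMap_eq fun a => by
      show algebraMap A (K ⊗[k] B) a = tensorMapLeft k φ B (algebraMap A (A ⊗[k] B) a)
      simp [tensorMapLeft, Algebra.TensorProduct.algebraMap_apply, hφ]
    Algebra.IsPushout A K (A ⊗[k] B) (K ⊗[k] B) := by
  letI : Algebra (A ⊗[k] B) (K ⊗[k] B) := (tensorMapLeft k φ B).toAlgebra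
  haveI : IsScalarTower A (A ⊗[k] B) (K ⊗[k] B) := IsScalarTower.of_algebraMap_eq fun a => by
    show algebraMap A (K ⊗[k] B) a = tensorMapLeft k φ B (algebraMap A (A ⊗[k] B) a)
    simp [tensorMapLeft, Algebra.TensorProduct.algebraMap_apply, hφ]
  refine Algebra.IsPushout.tensorProduct_tensorProduct k B A K ?_
  ext b
  show tensorMapLeft k φ B ((1 : A) ⊗ₜ[k] b) = (1 : K) ⊗ₜ[k] b
  simp [tensorMapLeft]

/-- **Bridge, one module.** A `tensorMapLeft`-semilinear base change is a linear base change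
along `A → K`. -/
theorem exists_equiv_of_tensorMapLeft (φ : A →ₐ[k] K) (hφ : ∀ a, φ a = algebraMap A K a)
    (B : Type u) [CommRing B] [Algebra k B]
    {N N' : Type u} [AddCommGroup N] [Module (A ⊗[k] B) N] [Module A N]
    [IsScalarTower A (A ⊗[k] B) N]
    [AddCommGroup N'] [Module (K ⊗[k] B) N'] [Module K N'] [IsScalarTower K (K ⊗[k] B) N']
    (b : N →ₛₗ[tensorMapLeft k φ B] N') (hb : IsSemilinearBaseChange (tensorMapLeft k φ B) b) :
    ∃ E : K ⊗[A] N ≃ₗ[K] N', ∀ (c : K) (n : N), E (c ⊗ₜ[A] n) = c • b n := by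
  refine exists_equiv_of_isSemilinearBaseChange (A := A) (K := K) (tensorMapLeft k φ B) ?_
    (isPushout_tensorMapLeft φ hφ B) b hb
  intro a
  simp [tensorMapLeft, Algebra.TensorProduct.algebraMap_apply, hφ]

section Square

/-- Kernels and cokernels of two linear maps related by a commutative square of equivalences. -/
theorem nonempty_ker_coker_equiv_of_square {K : Type*} [CommRing K] {M N M' N' : Type*}
    [AddCommGroup M] [AddCommGroup N] [AddCommGroup M'] [AddCommGroup N']
    [Module K M] [Module K N] [Module K M'] [Module K N']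
    (f : M →ₗ[K] N) (f' : M' →ₗ[K] N') (E : M ≃ₗ[K] M') (F : N ≃ₗ[K] N')
    (h : f' ∘ₗ E.toLinearMap = F.toLinearMap ∘ₗ f) :
    Nonempty (LinearMap.ker f ≃ₗ[K] LinearMap.ker f') ∧
      Nonempty ((N ⧸ LinearMap.range f) ≃ₗ[K] (N' ⧸ LinearMap.range f')) := by
  constructor
  · have hk : LinearMap.ker f = Submodule.comap E.toLinearMap (LinearMap.ker f') := by
      ext z
      simp only [LinearMap.mem_ker, Submodule.mem_comap]
      have hz := LinearMap.congr_fun h z
      simp only [LinearMap.comp_apply, LinearEquiv.coe_coe] at hz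
      constructor
      · intro hfz
        show f' (E z) = 0
        rw [hz, hfz, map_zero]
      · intro hfz
        have hfz' : f' (E z) = 0 := hfz
        rw [hz] at hfz'
        exact F.injective (hfz'.trans (map_zero _).symm)
    exact ⟨(LinearEquiv.ofEq _ _ hk).trans (LinearEquiv.ofSubmodule' E _)⟩
  · have hr : Submodule.map F.toLinearMap (LinearMap.range f) = LinearMap.range f' := by
      rw [← LinearMap.range_comp, ← h, LinearMap.range_comp, LinearEquiv.range,
        Submodule.map_top]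
    exact ⟨Submodule.Quotient.equiv _ _ F hr⟩

end Square

section Datum

variable {k : Type u} [Field k] {A K : Type u} [CommRing A] [CommRing K] [Algebra k A]
  [Algebra k K] [Algebra A K] [IsScalarTower k A K]
  {B₀ B₁ B₀₁ : Type u} [CommRing B₀] [CommRing B₁] [CommRing B₀₁]
  [Algebra k B₀] [Algebra k B₁] [Algebra k B₀₁] [Algebra B₀ B₀₁] [Algebra B₁ B₀₁]
  [IsScalarTower k B₀ B₀₁] [IsScalarTower k B₁ B₀₁]

/-- **Bridge.** If `G'` over `K` is a base change of `G` over `A` along `φ = algebraMap A K`,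
then the Čech differential of `G'` is the base change `K ⊗[A] -` of the Čech differential of
`G`, up to `K`-linear equivalences. -/
theorem exists_cech_square (φ : A →ₐ[k] K) (hφ : ∀ a, φ a = algebraMap A K a)
    (G : CurveGD k B₀ B₁ B₀₁ A) (G' : CurveGD k B₀ B₁ B₀₁ K) (h : CurveGD.IsBC φ G G') :
    ∃ (E : K ⊗[A] (G.N₀ × G.N₁) ≃ₗ[K] (G'.N₀ × G'.N₁)) (F : K ⊗[A] G.N₀₁ ≃ₗ[K] G'.N₀₁),
      G'.cech ∘ₗ E.toLinearMap = F.toLinearMap ∘ₗ (G.cech).baseChange K := by
  obtain ⟨bc⟩ := h
  obtain ⟨E₀, hE₀⟩ := exists_equiv_of_tensorMapLeft φ hφ B₀ bc.b₀ bc.isBaseChange₀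
  obtain ⟨E₁, hE₁⟩ := exists_equiv_of_tensorMapLeft φ hφ B₁ bc.b₁ bc.isBaseChange₁
  obtain ⟨F, hF⟩ := exists_equiv_of_tensorMapLeft φ hφ B₀₁ bc.b₀₁ bc.isBaseChange₀₁
  refine ⟨(TensorProduct.prodRight A K K G.N₀ G.N₁).trans (LinearEquiv.prodCongr E₀ E₁), F, ?_⟩
  have hcech : ∀ (n₀ : G.N₀) (n₁ : G.N₁), G.cech (n₀, n₁) = G.r₀ n₀ - G.r₁ n₁ := by
    intro n₀ n₁
    simp [GlueDatum.cech, sub_eq_add_neg]
  have hcech' : ∀ (n₀ : G'.N₀) (n₁ : G'.N₁), G'.cech (n₀, n₁) = G'.r₀ n₀ - G'.r₁ n₁ := by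
    intro n₀ n₁
    simp [GlueDatum.cech, sub_eq_add_neg]
  refine LinearMap.ext fun z => ?_
  induction z using TensorProduct.induction_on with
  | zero => rw [map_zero, map_zero]
  | tmul c p =>
    obtain ⟨n₀, n₁⟩ := p
    have h1 : (LinearEquiv.prodCongr E₀ E₁)
        ((TensorProduct.prodRight A K K G.N₀ G.N₁) (c ⊗ₜ[A] (n₀, n₁))) =
          c • ((bc.b₀ n₀, bc.b₁ n₁) : G'.N₀ × G'.N₁) := by
      rw [TensorProduct.prodRight_tmul, LinearEquiv.prodCongr_apply, hE₀, hE₁]
      rfl
    show G'.cech ((LinearEquiv.prodCongr E₀ E₁)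
        ((TensorProduct.prodRight A K K G.N₀ G.N₁) (c ⊗ₜ[A] (n₀, n₁)))) =
      F ((G.cech).baseChange K (c ⊗ₜ[A] (n₀, n₁)))
    rw [h1, map_smul, LinearMap.baseChange_tmul, hF, hcech, hcech', map_sub, bc.comm₀,
      bc.comm₁]
  | add x y hx hy => simp only [map_add, hx, hy]

/-- **Bridge, cohomology.** `H⁰`/`H¹` of a base change are kernel/cokernel of the base-changed
Čech differential. -/
theorem nonempty_H0_H1_equiv (φ : A →ₐ[k] K) (hφ : ∀ a, φ a = algebraMap A K a)
    (G : CurveGD k B₀ B₁ B₀₁ A) (G' : CurveGD k B₀ B₁ B₀₁ K) (h : CurveGD.IsBC φ G G') :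
    Nonempty (LinearMap.ker ((G.cech).baseChange K) ≃ₗ[K] G'.H0) ∧
      Nonempty (((K ⊗[A] G.N₀₁) ⧸ LinearMap.range ((G.cech).baseChange K)) ≃ₗ[K] G'.H1) := by
  obtain ⟨E, F, hEF⟩ := exists_cech_square φ hφ G G' h
  exact nonempty_ker_coker_equiv_of_square _ _ E F hEF

end Datum

end Concrete

end Fermat.Agent.S25.H910
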