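/-
S25, block DEGREE (helper910): D1 + D2 + D9 in the frozen language of `DefsAlg`.
For a curve chart and a gluing datum `G` over any `k`-algebra `A`, there is a locally constant
function `f : Spec A → ℤ` such that every base change `G'` of `G` to a field `K` (along
`φ : A → K`) has finite-dimensional cohomology and degree `f (ker φ)`.
-/
import Fermat.Agent.S25.H910.GDBridge
import Fermat.Agent.S25.H910.EulerRank
import Fermat.Agent.S25.H250.AdapterProj

set_option autoImplicit false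
set_option linter.style.haveILetI false

namespace Fermat.Agent.S25.H910

open TensorProduct Fermat.Agent.S25 Fermat.Agent.S25.H10 Module

universe u

variable {k : Type u} [Field k] {B₀ B₁ B₀₁ : Type u} [CommRing B₀] [CommRing B₁] [CommRing B₀₁]
  [Algebra k B₀] [Algebra k B₁] [Algebra k B₀₁] [Algebra B₀ B₀₁] [Algebra B₁ B₀₁]
  [IsScalarTower k B₀ B₀₁] [IsScalarTower k B₁ B₀₁]

section Unit

variable {A K : Type u} [CommRing A] [CommRing K] [Algebra k A] [Algebra k K]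

theorem tensorMapLeft_algebraMap (φ : A →ₐ[k] K) (B B' : Type u) [CommRing B] [CommRing B']
    [Algebra k B] [Algebra k B'] [Algebra B B'] [IsScalarTower k B B'] (s : A ⊗[k] B) :
    tensorMapLeft k φ B' (algebraMap (A ⊗[k] B) (A ⊗[k] B') s) =
      algebraMap (K ⊗[k] B) (K ⊗[k] B') (tensorMapLeft k φ B s) := by
  induction s using TensorProduct.induction_on with
  | zero => simp
  | tmul a b =>
    simp [tensorMapLeft, RingHom.algebraMap_toAlgebra, tensorMapRight]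
  | add s t hs ht => simp only [map_add, hs, ht]

/-- The unit datum over `K` is the base change of the unit datum over `A`. -/
theorem isBC_unit (φ : A →ₐ[k] K) :
    CurveGD.IsBC (B₀ := B₀) (B₁ := B₁) (B₀₁ := B₀₁) φ
      (GlueDatum.unit A (A ⊗[k] B₀) (A ⊗[k] B₁) (A ⊗[k] B₀₁))
      (GlueDatum.unit K (K ⊗[k] B₀) (K ⊗[k] B₁) (K ⊗[k] B₀₁)) := by
  refine ⟨{
    b₀ := (tensorMapLeft k φ B₀).toSemilinearMap
    b₁ := (tensorMapLeft k φ B₁).toSemilinearMap
    b₀₁ := (tensorMapLeft k φ B₀₁).toSemilinearMap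
    comm₀ := fun s => tensorMapLeft_algebraMap φ B₀ B₀₁ s
    comm₁ := fun s => tensorMapLeft_algebraMap φ B₁ B₀₁ s
    isBaseChange₀ := ?_
    isBaseChange₁ := ?_
    isBaseChange₀₁ := ?_ }⟩
  · letI : Algebra (A ⊗[k] B₀) (K ⊗[k] B₀) := (tensorMapLeft k φ B₀).toAlgebra
    exact IsBaseChange.linearMap (A ⊗[k] B₀) (K ⊗[k] B₀)
  · letI : Algebra (A ⊗[k] B₁) (K ⊗[k] B₁) := (tensorMapLeft k φ B₁).toAlgebra
    exact IsBaseChange.linearMap (A ⊗[k] B₁) (K ⊗[k] B₁)
  · letI : Algebra (A ⊗[k] B₀₁) (K ⊗[k] B₀₁) := (tensorMapLeft k φ B₀₁).toAlgebra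
    exact IsBaseChange.linearMap (A ⊗[k] B₀₁) (K ⊗[k] B₀₁)

end Unit

section Main

variable {x : B₀} {y : B₁} {e : B₁ →ₐ[k] k} {A : Type u} [CommRing A] [Algebra k A]

/-- Euler characteristic of a fibre = value of `eulerFun`. -/
theorem euler_eq_eulerFun (h : IsCurveChart k B₀ B₁ B₀₁ x y e) (G : CurveGD k B₀ B₁ B₀₁ A)
    (m : ℕ) (hsurj : Function.Surjective ((H250.chartCechOps h G).d m))
    (K : Type u) [Field K] [Algebra k K] (φ : A →ₐ[k] K) (G' : CurveGD k B₀ B₁ B₀₁ K)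
    (hBC : CurveGD.IsBC φ G G') :
    Module.Finite K G'.H0 ∧ Module.Finite K G'.H1 ∧
      G'.euler = eulerFun (H250.chartCechOps h G) m
        (PrimeSpectrum.comap φ.toRingHom ⟨⊥, Ideal.isPrime_bot⟩) := by
  letI : Algebra A K := φ.toRingHom.toAlgebra
  haveI : IsScalarTower k A K := IsScalarTower.of_algebraMap_eq fun r => (φ.commutes r).symm
  have hφ : ∀ a, φ a = algebraMap A K a := fun a => rfl
  obtain ⟨hf1, hf2, heul⟩ := euler_field (H250.chartCechOps h G) (H250.isFGProj_X0 h G)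
    (H250.isFGProj_Y1 h G) (H250.r0_injective h G) (H250.r1_injective h G) m hsurj K
  rw [H250.chartCechOps_d_zero] at hf1 hf2 heul
  obtain ⟨⟨e1⟩, ⟨e2⟩⟩ := nonempty_H0_H1_equiv φ hφ G G' hBC
  refine ⟨Module.Finite.equiv e1, Module.Finite.equiv e2, ?_⟩
  rw [GlueDatum.euler, ← e1.finrank_eq, ← e2.finrank_eq]
  exact heul

/-- **D1 + D2 + D9 (frozen language).** -/
theorem exists_degree_locallyConstant (h : IsCurveChart k B₀ B₁ B₀₁ x y e)
    (G : CurveGD k B₀ B₁ B₀₁ A) :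
    ∃ f : PrimeSpectrum A → ℤ, IsLocallyConstant f ∧
      ∀ (K : Type u) [Field K] [Algebra k K] (φ : A →ₐ[k] K) (G' : CurveGD k B₀ B₁ B₀₁ K),
        CurveGD.IsBC φ G G' →
          Module.Finite K G'.H0 ∧ Module.Finite K G'.H1 ∧
            G'.degree = f (PrimeSpectrum.comap φ.toRingHom ⟨⊥, Ideal.isPrime_bot⟩) := by
  let U : CurveGD k B₀ B₁ B₀₁ A := GlueDatum.unit A (A ⊗[k] B₀) (A ⊗[k] B₁) (A ⊗[k] B₀₁)
  obtain ⟨m1, hm1⟩ := H550.exists_forall_d_surjective (H250.chartCechOps h G)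
    (H130.isFG_of_isFGProj (H250.isFGProj_X0 h G))
  obtain ⟨m2, hm2⟩ := H550.exists_forall_d_surjective (H250.chartCechOps h U)
    (H130.isFG_of_isFGProj (H250.isFGProj_X0 h U))
  have hs1 := hm1 (max m1 m2) (le_max_left _ _)
  have hs2 := hm2 (max m1 m2) (le_max_right _ _)
  have hl1 := isLocallyConstant_eulerFun (H250.chartCechOps h G) (H250.isFGProj_X0 h G)
    (H250.isFGProj_Y1 h G) (H250.r0_injective h G) (H250.r1_injective h G) _ hs1
  have hl2 := isLocallyConstant_eulerFun (H250.chartCechOps h U) (H250.isFGProj_X0 h U)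
    (H250.isFGProj_Y1 h U) (H250.r0_injective h U) (H250.r1_injective h U) _ hs2
  refine ⟨fun q => eulerFun (H250.chartCechOps h G) (max m1 m2) q -
    eulerFun (H250.chartCechOps h U) (max m1 m2) q, ?_, ?_⟩
  · intro s
    exact (hl1.prodMk hl2) ((fun pq : ℤ × ℤ => pq.1 - pq.2) ⁻¹' s)
  · intro K _ _ φ G' hBC
    obtain ⟨hf1, hf2, he1⟩ := euler_eq_eulerFun h G _ hs1 K φ G' hBC
    obtain ⟨-, -, he2⟩ := euler_eq_eulerFun h U _ hs2 K φ _ (isBC_unit φ)
    refine ⟨hf1, hf2, ?_⟩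
    rw [GlueDatum.degree, he1, he2]

/-- The degree function of a gluing datum over `A`: a locally constant function on `Spec A`
whose value at `ker φ` is the degree of the fibre along `φ : A → K`. -/
noncomputable def degFun (h : IsCurveChart k B₀ B₁ B₀₁ x y e) (G : CurveGD k B₀ B₁ B₀₁ A) :
    PrimeSpectrum A → ℤ :=
  Classical.choose (exists_degree_locallyConstant h G)

theorem isLocallyConstant_degFun (h : IsCurveChart k B₀ B₁ B₀₁ x y e)
    (G : CurveGD k B₀ B₁ B₀₁ A) : IsLocallyConstant (degFun h G) :=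
  (Classical.choose_spec (exists_degree_locallyConstant h G)).1

theorem degree_eq_degFun (h : IsCurveChart k B₀ B₁ B₀₁ x y e) (G : CurveGD k B₀ B₁ B₀₁ A)
    (K : Type u) [Field K] [Algebra k K] (φ : A →ₐ[k] K) (G' : CurveGD k B₀ B₁ B₀₁ K)
    (hBC : CurveGD.IsBC φ G G') :
    G'.degree = degFun h G (PrimeSpectrum.comap φ.toRingHom ⟨⊥, Ideal.isPrime_bot⟩) :=
  ((Classical.choose_spec (exists_degree_locallyConstant h G)).2 K φ G' hBC).2.2

/-- **D1.** Cohomology of a fibre is finite-dimensional. -/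
theorem finite_H0_H1_of_isBC (h : IsCurveChart k B₀ B₁ B₀₁ x y e) (G : CurveGD k B₀ B₁ B₀₁ A)
    (K : Type u) [Field K] [Algebra k K] (φ : A →ₐ[k] K) (G' : CurveGD k B₀ B₁ B₀₁ K)
    (hBC : CurveGD.IsBC φ G G') : Module.Finite K G'.H0 ∧ Module.Finite K G'.H1 :=
  ⟨((Classical.choose_spec (exists_degree_locallyConstant h G)).2 K φ G' hBC).1,
    ((Classical.choose_spec (exists_degree_locallyConstant h G)).2 K φ G' hBC).2.1⟩

/-- **D2 (general form).** Two fibres over the same prime of `Spec A` have the same degree. -/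
theorem degree_eq_of_comap_eq (h : IsCurveChart k B₀ B₁ B₀₁ x y e) (G : CurveGD k B₀ B₁ B₀₁ A)
    (K : Type u) [Field K] [Algebra k K] (φ : A →ₐ[k] K) (G' : CurveGD k B₀ B₁ B₀₁ K)
    (hBC : CurveGD.IsBC φ G G')
    (K₂ : Type u) [Field K₂] [Algebra k K₂] (φ₂ : A →ₐ[k] K₂) (G₂ : CurveGD k B₀ B₁ B₀₁ K₂)
    (hBC₂ : CurveGD.IsBC φ₂ G G₂)
    (hker : RingHom.ker φ.toRingHom = RingHom.ker φ₂.toRingHom) :
    G'.degree = G₂.degree := by
  rw [degree_eq_degFun h G K φ G' hBC, degree_eq_degFun h G K₂ φ₂ G₂ hBC₂]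
  congr 1
  apply PrimeSpectrum.ext
  show Ideal.comap φ.toRingHom ⊥ = Ideal.comap φ₂.toRingHom ⊥
  rw [← RingHom.ker_eq_comap_bot, ← RingHom.ker_eq_comap_bot, hker]

/-- **D9 (connected base).** If `Spec A` is connected (e.g. `A` is a domain), all fibres have
the same degree. -/
theorem degree_eq_of_preconnectedSpace [PreconnectedSpace (PrimeSpectrum A)]
    (h : IsCurveChart k B₀ B₁ B₀₁ x y e) (G : CurveGD k B₀ B₁ B₀₁ A)
    (K : Type u) [Field K] [Algebra k K] (φ : A →ₐ[k] K) (G' : CurveGD k B₀ B₁ B₀₁ K)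
    (hBC : CurveGD.IsBC φ G G')
    (K₂ : Type u) [Field K₂] [Algebra k K₂] (φ₂ : A →ₐ[k] K₂) (G₂ : CurveGD k B₀ B₁ B₀₁ K₂)
    (hBC₂ : CurveGD.IsBC φ₂ G G₂) :
    G'.degree = G₂.degree := by
  rw [degree_eq_degFun h G K φ G' hBC, degree_eq_degFun h G K₂ φ₂ G₂ hBC₂]
  exact (isLocallyConstant_degFun h G).apply_eq_of_preconnectedSpace _ _

/-- **D9 (domain).** Over a domain all fibres have the same degree. -/
theorem degree_eq_of_isDomain [IsDomain A]
    (h : IsCurveChart k B₀ B₁ B₀₁ x y e) (G : CurveGD k B₀ B₁ B₀₁ A)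
    (K : Type u) [Field K] [Algebra k K] (φ : A →ₐ[k] K) (G' : CurveGD k B₀ B₁ B₀₁ K)
    (hBC : CurveGD.IsBC φ G G')
    (K₂ : Type u) [Field K₂] [Algebra k K₂] (φ₂ : A →ₐ[k] K₂) (G₂ : CurveGD k B₀ B₁ B₀₁ K₂)
    (hBC₂ : CurveGD.IsBC φ₂ G G₂) :
    G'.degree = G₂.degree :=
  degree_eq_of_preconnectedSpace h G K φ G' hBC K₂ φ₂ G₂ hBC₂

/-- **D9 (openness).** The degree-zero locus is open and closed in `Spec A`. -/
theorem isClopen_degFun_eq_zero (h : IsCurveChart k B₀ B₁ B₀₁ x y e)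
    (G : CurveGD k B₀ B₁ B₀₁ A) : IsClopen {q : PrimeSpectrum A | degFun h G q = 0} :=
  (isLocallyConstant_degFun h G).isClopen_fiber 0

/-- `Deg0` from the degree function. -/
theorem deg0_of_degFun_eq_zero (h : IsCurveChart k B₀ B₁ B₀₁ x y e)
    (G : CurveGD k B₀ B₁ B₀₁ A) (hf : ∀ q, degFun h G q = 0) : G.Deg0 := by
  intro K _ _ φ G' hBC
  rw [degree_eq_degFun h G K φ G' hBC, hf]

end Main

end Fermat.Agent.S25.H910
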