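/-
S25, block DEGREE, leaf D2 (helper910): invariance of `h⁰`, `h¹`, `χ`, `deg` under extension of
the base field (statements exactly as in `H10/DegreeSkel.lean`), and D9 in the skeleton form.
-/
import Fermat.Agent.S25.H910.DegreeLC

set_option autoImplicit false
set_option linter.style.haveILetI false
set_option linter.unusedSectionVars false

namespace Fermat.Agent.S25.H910

open TensorProduct Module Fermat.Agent.S25 Fermat.Agent.S25.H10

universe u

section Flat

variable (K K' : Type u) [Field K] [Field K'] [Algebra K K'] {M N : Type u}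
  [AddCommGroup M] [AddCommGroup N] [Module K M] [Module K N]

/-- Flat base change of a kernel along a field extension. -/
theorem finrank_ker_baseChange (f : M →ₗ[K] N) :
    finrank K' (LinearMap.ker (f.baseChange K')) = finrank K (LinearMap.ker f) := by
  have hinj : Function.Injective ((LinearMap.ker f).subtype.baseChange K') := by
    rw [LinearMap.baseChange_eq_ltensor]
    exact Module.Flat.lTensor_preserves_injective_linearMap _ (Submodule.subtype_injective _)
  have hex : Function.Exact ((LinearMap.ker f).subtype.baseChange K') (f.baseChange K') := by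
    have := Module.Flat.lTensor_exact K' (LinearMap.exact_subtype_ker_map f)
    exact this
  have hrange : LinearMap.range ((LinearMap.ker f).subtype.baseChange K') =
      LinearMap.ker (f.baseChange K') := (LinearMap.exact_iff.mp hex).symm
  rw [← hrange, LinearMap.finrank_range_of_inj hinj, Module.finrank_baseChange]

/-- Base change of a cokernel along a field extension. -/
theorem finrank_coker_baseChange (f : M →ₗ[K] N) :
    finrank K' ((K' ⊗[K] N) ⧸ LinearMap.range (f.baseChange K')) =
      finrank K (N ⧸ LinearMap.range f) := by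
  have hex : Function.Exact (f.baseChange K') ((LinearMap.range f).mkQ.baseChange K') := by
    have := lTensor_exact K' (LinearMap.exact_map_mkQ_range f) (Submodule.mkQ_surjective _)
    exact this
  have hs : Function.Surjective ((LinearMap.range f).mkQ.baseChange K') := by
    rw [LinearMap.baseChange_eq_ltensor]
    exact LinearMap.lTensor_surjective K' (Submodule.mkQ_surjective _)
  have hk : LinearMap.range (f.baseChange K') =
      LinearMap.ker ((LinearMap.range f).mkQ.baseChange K') := (LinearMap.exact_iff.mp hex).symm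
  have e := (Submodule.quotEquivOfEq _ _ hk).trans
    (LinearMap.quotKerEquivOfSurjective ((LinearMap.range f).mkQ.baseChange K') hs)
  rw [e.finrank_eq, Module.finrank_baseChange]

end Flat

section Chart

variable {k : Type u} [Field k] {B₀ B₁ B₀₁ : Type u} [CommRing B₀] [CommRing B₁] [CommRing B₀₁]
  [Algebra k B₀] [Algebra k B₁] [Algebra k B₀₁] [Algebra B₀ B₀₁] [Algebra B₁ B₀₁]
  [IsScalarTower k B₀ B₀₁] [IsScalarTower k B₁ B₀₁]
  {x : B₀} {y : B₁} {e : B₁ →ₐ[k] k}

/-- D2-b. The unit datum over `A'` is a base change of the unit datum over `A`. -/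
theorem unit_isBC {A A' : Type u} [CommRing A] [Algebra k A] [CommRing A'] [Algebra k A']
    (φ : A →ₐ[k] A') :
    CurveGD.IsBC (B₀ := B₀) (B₁ := B₁) (B₀₁ := B₀₁) φ
      (GlueDatum.unit A (A ⊗[k] B₀) (A ⊗[k] B₁) (A ⊗[k] B₀₁))
      (GlueDatum.unit A' (A' ⊗[k] B₀) (A' ⊗[k] B₁) (A' ⊗[k] B₀₁)) :=
  isBC_unit φ

/-- D2-d'. `h⁰` is invariant under field extension. -/
theorem finrank_H0_eq_of_isBC (_hC : IsCurveChart k B₀ B₁ B₀₁ x y e) {K K' : Type u} [Field K]
    [Field K'] [Algebra k K] [Algebra k K'] (φ : K →ₐ[k] K') {G : CurveGD k B₀ B₁ B₀₁ K}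
    {G' : CurveGD k B₀ B₁ B₀₁ K'} (h : CurveGD.IsBC φ G G') :
    Module.finrank K' G'.H0 = Module.finrank K G.H0 := by
  letI : Algebra K K' := φ.toRingHom.toAlgebra
  haveI : IsScalarTower k K K' := IsScalarTower.of_algebraMap_eq fun r => (φ.commutes r).symm
  obtain ⟨⟨e1⟩, -⟩ := nonempty_H0_H1_equiv φ (fun _ => rfl) G G' h
  rw [← e1.finrank_eq, finrank_ker_baseChange]

/-- D2-d'. `h¹` is invariant under field extension. -/
theorem finrank_H1_eq_of_isBC (_hC : IsCurveChart k B₀ B₁ B₀₁ x y e) {K K' : Type u} [Field K]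
    [Field K'] [Algebra k K] [Algebra k K'] (φ : K →ₐ[k] K') {G : CurveGD k B₀ B₁ B₀₁ K}
    {G' : CurveGD k B₀ B₁ B₀₁ K'} (h : CurveGD.IsBC φ G G') :
    Module.finrank K' G'.H1 = Module.finrank K G.H1 := by
  letI : Algebra K K' := φ.toRingHom.toAlgebra
  haveI : IsScalarTower k K K' := IsScalarTower.of_algebraMap_eq fun r => (φ.commutes r).symm
  obtain ⟨-, ⟨e2⟩⟩ := nonempty_H0_H1_equiv φ (fun _ => rfl) G G' h
  rw [← e2.finrank_eq, finrank_coker_baseChange]

/-- D2-d. `χ` is invariant under field extension. -/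
theorem euler_eq_of_isBC (_hC : IsCurveChart k B₀ B₁ B₀₁ x y e) {K K' : Type u} [Field K]
    [Field K'] [Algebra k K] [Algebra k K'] (φ : K →ₐ[k] K') {G : CurveGD k B₀ B₁ B₀₁ K}
    {G' : CurveGD k B₀ B₁ B₀₁ K'} (h : CurveGD.IsBC φ G G') : G'.euler = G.euler := by
  rw [GlueDatum.euler, GlueDatum.euler, finrank_H0_eq_of_isBC _hC φ h,
    finrank_H1_eq_of_isBC _hC φ h]

/-- D2-e. The degree is invariant under field extension. -/
theorem degree_eq_of_isBC (_hC : IsCurveChart k B₀ B₁ B₀₁ x y e) {K K' : Type u} [Field K]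
    [Field K'] [Algebra k K] [Algebra k K'] (φ : K →ₐ[k] K') {G : CurveGD k B₀ B₁ B₀₁ K}
    {G' : CurveGD k B₀ B₁ B₀₁ K'} (h : CurveGD.IsBC φ G G') : G'.degree = G.degree := by
  rw [GlueDatum.degree, GlueDatum.degree, euler_eq_of_isBC _hC φ h,
    euler_eq_of_isBC _hC φ (isBC_unit (B₀ := B₀) (B₁ := B₁) (B₀₁ := B₀₁) φ)]

/-- D9. The fibrewise degree is a locally constant function on `Spec A`. -/
theorem exists_locallyConstant_degree (hC : IsCurveChart k B₀ B₁ B₀₁ x y e) {A : Type u}
    [CommRing A] [Algebra k A] (G : CurveGD k B₀ B₁ B₀₁ A) :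
    ∃ δ : PrimeSpectrum A → ℤ, IsLocallyConstant δ ∧
      ∀ (K : Type u) [Field K] [Algebra k K] (φ : A →ₐ[k] K) (G' : CurveGD k B₀ B₁ B₀₁ K),
        CurveGD.IsBC φ G G' →
          G'.degree = δ ⟨RingHom.ker φ.toRingHom, RingHom.ker_isPrime _⟩ := by
  refine ⟨degFun hC G, isLocallyConstant_degFun hC G, fun K _ _ φ G' hBC => ?_⟩
  rw [degree_eq_degFun hC G K φ G' hBC]
  congr 1

end Chart

end Fermat.Agent.S25.H910
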