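/-
S25, block DEGREE, leaf D4 (helper910), operator-language part: over a field `K`,
`χ(d (m+1)) = χ(d m) + dim (N1 / Y1 N1)`, hence `χ(d m) = χ(d 0) + m · dim (N1 / Y1 N1)`.
-/
import Fermat.Agent.S25.H10.RRLite
import Fermat.Agent.S25.H130.CechK0
import Fermat.Agent.S25.H550.CechK2
import Fermat.Agent.S25.H910.DegreeBound

set_option autoImplicit false

namespace Fermat.Agent.S25.H910

open Fermat.Agent.S25.H10 Module

universe u v

variable {K : Type u} [Field K] {N0 N1 N01 : Type v}
  [AddCommGroup N0] [AddCommGroup N1] [AddCommGroup N01]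
  [Module K N0] [Module K N1] [Module K N01]

/-- D1 (operator language): over a field, `H⁰(L(m∞))` is finite-dimensional. -/
theorem finiteDimensional_ker_d (D : CechOps K N0 N1 N01) (h0 : IsFGProj D.X0)
    (h1 : IsFGProj D.Y1) (hr0 : Function.Injective D.r0) (hr1 : Function.Injective D.r1)
    (m : ℕ) : FiniteDimensional K (LinearMap.ker (D.d m)) := by
  obtain ⟨M, hM, hle⟩ := exists_fg_ge_H0 D h0 h1 hr0 hr1 m
  have : Module.Finite K M := Module.Finite.iff_fg.mpr hM
  exact Submodule.finiteDimensional_of_le hle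

/-- D1 (operator language): `H¹(L(m∞))` is finite-dimensional. -/
theorem finiteDimensional_coker_d (D : CechOps K N0 N1 N01) (h0 : IsFGProj D.X0) (m : ℕ) :
    FiniteDimensional K (N01 ⧸ LinearMap.range (D.d m)) :=
  H550.H1_finite D (H130.isFG_of_isFGProj h0) m

/-- The modification `L(m∞) → L((m+1)∞)` on cochains: `(a, b) ↦ (a, Y1 b)`. -/
def twistJ (D : CechOps K N0 N1 N01) : (N0 × N1) →ₗ[K] (N0 × N1) :=
  LinearMap.prodMap LinearMap.id D.Y1

theorem d_succ_comp_twistJ (D : CechOps K N0 N1 N01) (m : ℕ) :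
    D.d (m + 1) ∘ₗ twistJ D = D.d m := by
  apply LinearMap.ext
  rintro ⟨a, b⟩
  simp only [LinearMap.comp_apply, twistJ, LinearMap.prodMap_apply, LinearMap.id_apply,
    CechOps.d_apply]
  rw [D.r1_Y1, pow_succ, Module.End.mul_apply, D.T_Tinv_apply]

theorem twistJ_injective (D : CechOps K N0 N1 N01) (hY : Function.Injective D.Y1) :
    Function.Injective (twistJ D) := by
  rintro ⟨a, b⟩ ⟨a', b'⟩ h
  simp only [twistJ, LinearMap.prodMap_apply, LinearMap.id_apply, Prod.mk.injEq] at h
  exact Prod.ext h.1 (hY h.2)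

/-- `coker (twistJ) ≃ N1 / Y1 N1`. -/
theorem nonempty_coker_twistJ_equiv (D : CechOps K N0 N1 N01) :
    Nonempty (((N0 × N1) ⧸ LinearMap.range (twistJ D)) ≃ₗ[K] (N1 ⧸ LinearMap.range D.Y1)) := by
  let q : (N0 × N1) →ₗ[K] (N1 ⧸ LinearMap.range D.Y1) :=
    (LinearMap.range D.Y1).mkQ ∘ₗ LinearMap.snd K N0 N1
  have hq : Function.Surjective q := by
    intro z
    obtain ⟨b, rfl⟩ := Submodule.Quotient.mk_surjective _ z
    exact ⟨(0, b), rfl⟩
  have hk : LinearMap.range (twistJ D) = LinearMap.ker q := by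
    ext ⟨a, b⟩
    simp only [LinearMap.mem_range, LinearMap.mem_ker, q, LinearMap.comp_apply,
      LinearMap.snd_apply, Submodule.mkQ_apply, Submodule.Quotient.mk_eq_zero]
    constructor
    · rintro ⟨⟨a', b'⟩, h⟩
      simp only [twistJ, LinearMap.prodMap_apply, LinearMap.id_apply, Prod.mk.injEq] at h
      exact ⟨b', h.2⟩
    · rintro ⟨b', h⟩
      exact ⟨(a, b'), by simp [twistJ, h]⟩
  exact ⟨(Submodule.quotEquivOfEq _ _ hk).trans (LinearMap.quotKerEquivOfSurjective q hq)⟩

/-- **D4, one step.** -/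
theorem euler_d_succ (D : CechOps K N0 N1 N01) (h0 : IsFGProj D.X0)
    (h1 : IsFGProj D.Y1) (hr0 : Function.Injective D.r0) (hr1 : Function.Injective D.r1)
    (m : ℕ) :
    (finrank K (LinearMap.ker (D.d (m + 1))) : ℤ) -
        finrank K (N01 ⧸ LinearMap.range (D.d (m + 1))) =
      (finrank K (LinearMap.ker (D.d m)) : ℤ) - finrank K (N01 ⧸ LinearMap.range (D.d m)) +
        finrank K (N1 ⧸ LinearMap.range D.Y1) := by
  obtain ⟨e⟩ := nonempty_coker_twistJ_equiv D
  have hY : Function.Injective D.Y1 := H130.injective_of_isFGProj h1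
  have hfq : Module.Finite K (N1 ⧸ LinearMap.range D.Y1) := by
    have := (H130.quotient_pow_finite_projective h1 1).1
    rwa [pow_one] at this
  have hf1 : FiniteDimensional K (LinearMap.ker (D.d (m + 1))) :=
    finiteDimensional_ker_d D h0 h1 hr0 hr1 (m + 1)
  have hf2 : FiniteDimensional K ((N0 × N1) ⧸ LinearMap.range (twistJ D)) :=
    Module.Finite.equiv e.symm
  have hf3 : FiniteDimensional K (N01 ⧸ LinearMap.range (D.d (m + 1) ∘ₗ twistJ D)) := by
    rw [d_succ_comp_twistJ]
    exact finiteDimensional_coker_d D h0 m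
  have key := H10.finrank_ker_add_finrank_coker (twistJ D) (D.d (m + 1))
    (twistJ_injective D hY)
  rw [e.finrank_eq, d_succ_comp_twistJ D m] at key
  omega

/-- **D4 (operator language).** `χ(L(m∞)) = χ(L) + m · dim (N1 / Y1 N1)`. -/
theorem euler_d_nat (D : CechOps K N0 N1 N01) (h0 : IsFGProj D.X0)
    (h1 : IsFGProj D.Y1) (hr0 : Function.Injective D.r0) (hr1 : Function.Injective D.r1)
    (m : ℕ) :
    (finrank K (LinearMap.ker (D.d m)) : ℤ) - finrank K (N01 ⧸ LinearMap.range (D.d m)) =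
      (finrank K (LinearMap.ker (D.d 0)) : ℤ) - finrank K (N01 ⧸ LinearMap.range (D.d 0)) +
        m * finrank K (N1 ⧸ LinearMap.range D.Y1) := by
  induction m with
  | zero => simp
  | succ m ih =>
    rw [euler_d_succ D h0 h1 hr0 hr1 m, ih]
    push_cast
    ring

end Fermat.Agent.S25.H910
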