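/-
S25, block DEGREE, leaves D1 + D4 (helper910), frozen language of `DefsAlg`/`H10.DegreeDefs`:
`finite_H1`, `finite_H0`, `euler_twistE`, `degree_twistE`, `chartDeg_pos`
(statements exactly as in `H10/DegreeSkel.lean`).
-/
import Fermat.Agent.S25.H10.DegreeDefs
import Fermat.Agent.S25.H250.AdapterProj
import Fermat.Agent.S25.H910.TwistEuler

set_option autoImplicit false
set_option linter.style.haveILetI false
set_option linter.unusedSectionVars false

namespace Fermat.Agent.S25.H910

open TensorProduct Module Fermat.Agent.S25 Fermat.Agent.S25.H10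

universe u

/-- An invertible module modulo an ideal `I` with `R ⧸ I` finite-dimensional over a field has
the same dimension as `R ⧸ I` (invertible modules over semilocal rings are free). -/
theorem finrank_quotient_smul_top_eq (K R : Type u) [Field K] [CommRing R] [Algebra K R]
    (I : Ideal R) [Module.Finite K (R ⧸ I)] (N : Type u) [AddCommGroup N] [Module R N]
    [Module K N] [IsScalarTower K R N] [Module.Invertible R N] :
    finrank K (N ⧸ (I • ⊤ : Submodule R N)) = finrank K (R ⧸ I) := by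
  have hart : IsArtinianRing (R ⧸ I) := IsArtinianRing.of_finite K (R ⧸ I)
  have hfree : Module.Free (R ⧸ I) ((R ⧸ I) ⊗[R] N) :=
    CommRing.Pic.subsingleton_iff.mp inferInstance ((R ⧸ I) ⊗[R] N) inferInstance
  obtain ⟨e2⟩ := Module.Invertible.free_iff_linearEquiv.mp hfree
  let e1 : ((R ⧸ I) ⊗[R] N) ≃ₗ[R] N ⧸ (I • (⊤ : Submodule R N)) :=
    TensorProduct.quotTensorEquivQuotSMul N I
  have h1 := (e1.restrictScalars K).finrank_eq
  have h2 := (e2.restrictScalars K).finrank_eq
  rw [← h1, h2]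

section Quot

variable {k : Type u} [Field k]

/-- `(K ⊗ B) / (1 ⊗ y) = K ⊗ (B / y)`. -/
theorem nonempty_tensor_quotient_span_equiv (K : Type u) [Field K] [Algebra k K] (B : Type u)
    [CommRing B] [Algebra k B] (y : B) :
    Nonempty ((K ⊗[k] (B ⧸ Ideal.span {y})) ≃ₗ[K]
      ((K ⊗[k] B) ⧸ Ideal.span {(1 : K) ⊗ₜ[k] y})) := by
  have hI : (Ideal.span {y}).map (Algebra.TensorProduct.includeRight (R := k) (A := K) (B := B))
      = Ideal.span {(1 : K) ⊗ₜ[k] y} := by
    rw [Ideal.map_span, Set.image_singleton]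
    rfl
  let e := Algebra.TensorProduct.tensorQuotientEquiv (R := k) K B K (Ideal.span {y})
  exact ⟨e.toLinearEquiv.trans
    ((Ideal.quotientEquivAlgOfEq K hI).toLinearEquiv)⟩

theorem finrank_tensor_quotient_span (K : Type u) [Field K] [Algebra k K] (B : Type u)
    [CommRing B] [Algebra k B] (y : B) :
    finrank K ((K ⊗[k] B) ⧸ Ideal.span {(1 : K) ⊗ₜ[k] y}) = finrank k (B ⧸ Ideal.span {y}) := by
  obtain ⟨e⟩ := nonempty_tensor_quotient_span_equiv (k := k) K B y
  rw [← e.finrank_eq, Module.finrank_baseChange]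

/-- If `B` is finite over `k[y]`, then `B / (y)` is finite over `k`. -/
theorem finite_quotient_span_of_finite_aeval (B : Type u) [CommRing B] [Algebra k B] (y : B)
    (h : (Polynomial.aeval y : Polynomial k →ₐ[k] B).Finite) :
    Module.Finite k (B ⧸ Ideal.span {y}) := by
  classical
  letI : Algebra (Polynomial k) B := (Polynomial.aeval y : Polynomial k →ₐ[k] B).toRingHom.toAlgebra
  have hfin : Module.Finite (Polynomial k) B := h
  obtain ⟨s, hs⟩ := hfin.fg_top
  refine ⟨⟨s.image (Ideal.Quotient.mk (Ideal.span {y})), ?_⟩⟩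
  rw [eq_top_iff]
  rintro z -
  obtain ⟨b, rfl⟩ := Ideal.Quotient.mk_surjective z
  have hb : b ∈ Submodule.span (Polynomial k) (s : Set B) := by rw [hs]; trivial
  induction hb using Submodule.span_induction with
  | mem b hb =>
    apply Submodule.subset_span
    rw [Finset.coe_image]
    exact ⟨b, hb, rfl⟩
  | zero => rw [map_zero]; exact Submodule.zero_mem _
  | add b c _ _ hb hc => rw [map_add]; exact Submodule.add_mem _ hb hc
  | smul p b _ hb =>
    have h1 : p • b = Polynomial.aeval y p * b := rfl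
    have h2 : Ideal.Quotient.mk (Ideal.span {y}) (Polynomial.aeval y p) =
        algebraMap k (B ⧸ Ideal.span {y}) (p.coeff 0) := by
      obtain ⟨q, hq⟩ := Polynomial.X_dvd_sub_C (p := p)
      have hp : p = Polynomial.C (p.coeff 0) + Polynomial.X * q := by
        rw [← hq]; ring
      conv_lhs => rw [hp]
      rw [map_add, map_mul, Polynomial.aeval_X, Polynomial.aeval_C, map_add, map_mul]
      have hy : Ideal.Quotient.mk (Ideal.span {y}) y = 0 :=
        Ideal.Quotient.eq_zero_iff_mem.mpr (Ideal.subset_span rfl)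
      rw [hy, zero_mul, add_zero]
      rfl
    rw [h1, map_mul, h2, ← Algebra.smul_def]
    exact Submodule.smul_mem _ _ hb

end Quot

section Chart

variable {k : Type u} [Field k] {B₀ B₁ B₀₁ : Type u} [CommRing B₀] [CommRing B₁] [CommRing B₀₁]
  [Algebra k B₀] [Algebra k B₁] [Algebra k B₀₁] [Algebra B₀ B₀₁] [Algebra B₁ B₀₁]
  [IsScalarTower k B₀ B₀₁] [IsScalarTower k B₁ B₀₁]
  {x : B₀} {y : B₁} {e : B₁ →ₐ[k] k}

/-- D4-c. `d > 0`. -/
theorem chartDeg_pos (hC : IsCurveChart k B₀ B₁ B₀₁ x y e) : 0 < chartDeg k y := by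
  have hfin : Module.Finite k (B₁ ⧸ Ideal.span {y}) :=
    finite_quotient_span_of_finite_aeval B₁ y hC.finite₁
  have hne : Ideal.span {y} ≠ (⊤ : Ideal B₁) := by
    intro htop
    have hu : IsUnit y := Ideal.span_singleton_eq_top.mp htop
    have := hu.map e
    rw [hC.e_y] at this
    exact not_isUnit_zero this
  have : Nontrivial (B₁ ⧸ Ideal.span {y}) := Ideal.Quotient.nontrivial_iff.mpr hne
  exact Module.finrank_pos

/-- D1-a. `Ȟ¹` is a finite module over any base ring. -/
theorem finite_H1 (hC : IsCurveChart k B₀ B₁ B₀₁ x y e) {A : Type u} [CommRing A]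
    [Algebra k A] (G : CurveGD k B₀ B₁ B₀₁ A) : Module.Finite A G.H1 := by
  have h := H550.H1_finite (H250.chartCechOps hC G)
    (H130.isFG_of_isFGProj (H250.isFGProj_X0 hC G)) 0
  have hd := H250.chartCechOps_d_zero hC G
  show Module.Finite A (G.N₀₁ ⧸ LinearMap.range G.cech)
  rw [← hd]
  exact h

/-- D1-b. `Ȟ⁰` is finite-dimensional over a field. -/
theorem finite_H0 (hC : IsCurveChart k B₀ B₁ B₀₁ x y e) {K : Type u} [Field K]
    [Algebra k K] (G : CurveGD k B₀ B₁ B₀₁ K) : Module.Finite K G.H0 := by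
  have h := finiteDimensional_ker_d (H250.chartCechOps hC G) (H250.isFGProj_X0 hC G)
    (H250.isFGProj_Y1 hC G) (H250.r0_injective hC G) (H250.r1_injective hC G) 0
  have hd := H250.chartCechOps_d_zero hC G
  show Module.Finite K (LinearMap.ker G.cech)
  rw [← hd]
  exact h

/-- The dimension of `N₁ / y N₁` is the degree `d` of the chart. -/
theorem finrank_quotient_Y1 (hC : IsCurveChart k B₀ B₁ B₀₁ x y e) {K : Type u} [Field K]
    [Algebra k K] (G : CurveGD k B₀ B₁ B₀₁ K) :
    finrank K (G.N₁ ⧸ LinearMap.range (H250.chartCechOps hC G).Y1) = chartDeg k y := by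
  have hfin0 : Module.Finite k (B₁ ⧸ Ideal.span {y}) :=
    finite_quotient_span_of_finite_aeval B₁ y hC.finite₁
  obtain ⟨e0⟩ := nonempty_tensor_quotient_span_equiv (k := k) K B₁ y
  have hfin : Module.Finite K ((K ⊗[k] B₁) ⧸ Ideal.span {(1 : K) ⊗ₜ[k] y}) :=
    Module.Finite.equiv e0
  have hinv : Module.Invertible (K ⊗[k] B₁) G.N₁ := G.invertible₁
  have key := finrank_quotient_smul_top_eq K (K ⊗[k] B₁) (Ideal.span {(1 : K) ⊗ₜ[k] y}) G.N₁
  rw [finrank_tensor_quotient_span] at key
  have hrange : LinearMap.range (H250.chartCechOps hC G).Y1 =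
      ((Ideal.span {(1 : K) ⊗ₜ[k] y} • ⊤ : Submodule (K ⊗[k] B₁) G.N₁)).restrictScalars K := by
    ext n
    rw [Submodule.restrictScalars_mem, Submodule.ideal_span_singleton_smul,
      Submodule.mem_smul_pointwise_iff_exists]
    simp only [LinearMap.mem_range, Submodule.mem_top, true_and]
    rfl
  rw [chartDeg, ← key]
  exact ((Submodule.quotEquivOfEq _ _ hrange).trans
    (Submodule.Quotient.restrictScalarsEquiv K _)).finrank_eq

theorem cech_twistE_natCast_apply (hC : IsCurveChart k B₀ B₁ B₀₁ x y e) {K : Type u} [Field K]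
    [Algebra k K] (G : CurveGD k B₀ B₁ B₀₁ K) (n : ℕ) (a : G.N₀) (b : G.N₁) :
    (twistE x y hC.mul_eq_one G (n : ℤ)).cech (a, b) = (H250.chartCechOps hC G).d n (a, b) := by
  haveI := hC.away₀
  haveI := hC.away₁
  have h := gdTwist_cech_apply G (xUnit x y hC.mul_eq_one K ^ (n : ℤ)) a b
  refine h.trans ?_
  rw [CechOps.d_apply,
    show H250.chartCechOps hC G = H250.toCechOps x y hC.mul_eq_one G from rfl,
    H250.toCechOps_T_pow_apply, zpow_natCast, Units.val_pow_eq_pow_val]
  rfl

/-- The Čech differential of the `n`-fold twist (`n ≥ 0`) is the twisted differential `d n`. -/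
theorem cech_twistE_natCast (hC : IsCurveChart k B₀ B₁ B₀₁ x y e) {K : Type u} [Field K]
    [Algebra k K] (G : CurveGD k B₀ B₁ B₀₁ K) (n : ℕ) :
    (twistE x y hC.mul_eq_one G (n : ℤ)).cech = (H250.chartCechOps hC G).d n :=
  LinearMap.ext fun p => cech_twistE_natCast_apply hC G n p.1 p.2

theorem cech_twistE_twistE_neg_apply (hC : IsCurveChart k B₀ B₁ B₀₁ x y e) {K : Type u}
    [Field K] [Algebra k K] (G : CurveGD k B₀ B₁ B₀₁ K) (n : ℤ) (a : G.N₀) (b : G.N₁) :
    (twistE x y hC.mul_eq_one (twistE x y hC.mul_eq_one G (-n)) n).cech (a, b) =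
      G.cech (a, b) := by
  have h1 : G.cech (a, b) = G.r₀ a - G.r₁ b := by
    simp [GlueDatum.cech, sub_eq_add_neg]
  have h := gdTwist_cech_apply (gdTwist G (xUnit x y hC.mul_eq_one K ^ (-n)))
    (xUnit x y hC.mul_eq_one K ^ n) a b
  refine h.trans ?_
  show (G.r₀ a - ((xUnit x y hC.mul_eq_one K ^ n : (K ⊗[k] B₀₁)ˣ) : K ⊗[k] B₀₁) •
    (((xUnit x y hC.mul_eq_one K ^ (-n) : (K ⊗[k] B₀₁)ˣ) : K ⊗[k] B₀₁) • G.r₁ b) : G.N₀₁) =
      G.cech (a, b)
  rw [h1, smul_smul, ← Units.val_mul, ← zpow_add, add_neg_cancel, zpow_zero, Units.val_one,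
    one_smul]

/-- Twisting by `-n` and then by `n` gives back the original Čech differential. -/
theorem cech_twistE_twistE_neg (hC : IsCurveChart k B₀ B₁ B₀₁ x y e) {K : Type u} [Field K]
    [Algebra k K] (G : CurveGD k B₀ B₁ B₀₁ K) (n : ℤ) :
    (twistE x y hC.mul_eq_one (twistE x y hC.mul_eq_one G (-n)) n).cech = G.cech :=
  LinearMap.ext fun p => cech_twistE_twistE_neg_apply hC G n p.1 p.2

theorem euler_twistE_natCast (hC : IsCurveChart k B₀ B₁ B₀₁ x y e) {K : Type u} [Field K]
    [Algebra k K] (G : CurveGD k B₀ B₁ B₀₁ K) (n : ℕ) :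
    (twistE x y hC.mul_eq_one G (n : ℤ)).euler = G.euler + n * chartDeg k y := by
  have h := euler_d_nat (H250.chartCechOps hC G) (H250.isFGProj_X0 hC G)
    (H250.isFGProj_Y1 hC G) (H250.r0_injective hC G) (H250.r1_injective hC G) n
  rw [finrank_quotient_Y1 hC G, H250.chartCechOps_d_zero hC G,
    ← cech_twistE_natCast hC G n] at h
  exact h

/-- D4-a. `χ(G(n)) = χ(G) + n d`. -/
theorem euler_twistE (hC : IsCurveChart k B₀ B₁ B₀₁ x y e) {K : Type u} [Field K]
    [Algebra k K] (G : CurveGD k B₀ B₁ B₀₁ K) (n : ℤ) :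
    (twistE x y hC.mul_eq_one G n).euler = G.euler + n * chartDeg k y := by
  obtain ⟨m, rfl | rfl⟩ := Int.eq_nat_or_neg n
  · exact euler_twistE_natCast hC G m
  · have h1 := euler_twistE_natCast hC (twistE x y hC.mul_eq_one G (-(m : ℤ))) m
    have h2 : (twistE x y hC.mul_eq_one (twistE x y hC.mul_eq_one G (-(m : ℤ))) (m : ℤ)).euler =
        G.euler := by
      have hc := cech_twistE_twistE_neg hC G (m : ℤ)
      show (finrank K (LinearMap.ker (twistE x y hC.mul_eq_one
          (twistE x y hC.mul_eq_one G (-(m : ℤ))) (m : ℤ)).cech) : ℤ) -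
        finrank K (G.N₀₁ ⧸ LinearMap.range (twistE x y hC.mul_eq_one
          (twistE x y hC.mul_eq_one G (-(m : ℤ))) (m : ℤ)).cech) = _
      rw [hc]
      rfl
    rw [h2] at h1
    rw [h1]
    ring

/-- D4-b. `deg G(n) = deg G + n d`. -/
theorem degree_twistE (hC : IsCurveChart k B₀ B₁ B₀₁ x y e) {K : Type u} [Field K]
    [Algebra k K] (G : CurveGD k B₀ B₁ B₀₁ K) (n : ℤ) :
    (twistE x y hC.mul_eq_one G n).degree = G.degree + n * chartDeg k y := by
  rw [GlueDatum.degree, GlueDatum.degree, euler_twistE hC G n]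
  ring

end Chart

end Fermat.Agent.S25.H910
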