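/-
S25, block DEGREE, leaf D6 (helper910): the unit datum and the Riemann inequality
(statements exactly as in `H10/DegreeSkel.lean`).
-/
import Fermat.Agent.S25.H910.FieldBC
import Fermat.Agent.S25.H910.TwistDegree

set_option autoImplicit false
set_option linter.style.haveILetI false
set_option linter.unusedSectionVars false

namespace Fermat.Agent.S25.H910

open TensorProduct Module Fermat.Agent.S25 Fermat.Agent.S25.H10

universe u

variable {k : Type u} [Field k] {B₀ B₁ B₀₁ : Type u} [CommRing B₀] [CommRing B₁] [CommRing B₀₁]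
  [Algebra k B₀] [Algebra k B₁] [Algebra k B₀₁] [Algebra B₀ B₀₁] [Algebra B₁ B₀₁]
  [IsScalarTower k B₀ B₀₁] [IsScalarTower k B₁ B₀₁]
  {x : B₀} {y : B₁} {e : B₁ →ₐ[k] k}

/-- An element of a domain over an algebraically closed field which is algebraic is a scalar. -/
theorem exists_algebraMap_eq_of_isAlgebraic [IsAlgClosed k] {R : Type u} [CommRing R]
    [IsDomain R] [Algebra k R] (a : R) (ha : IsAlgebraic k a) : ∃ c : k, algebraMap k R c = a := by
  have hint : IsIntegral k a := ha.isIntegral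
  have hirr := minpoly.irreducible hint
  have hdeg := IsAlgClosed.degree_eq_one_of_irreducible k hirr
  exact minpoly.degree_eq_one_iff.mp hdeg

section AbstractUnit

variable (F R₀ R₁ R₀₁ : Type u) [Field F] [CommRing R₀] [CommRing R₁]
    [CommRing R₀₁] [Algebra F R₀] [Algebra F R₁] [Algebra F R₀₁] [Algebra R₀ R₀₁]
    [Algebra R₁ R₀₁] [IsScalarTower F R₀ R₀₁] [IsScalarTower F R₁ R₀₁]

/-- The Čech differential of the unit datum, with honest types. -/
noncomputable def unitCech : (R₀ × R₁) →ₗ[F] R₀₁ :=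
  ((Algebra.linearMap R₀ R₀₁).restrictScalars F).coprod
    (-((Algebra.linearMap R₁ R₀₁).restrictScalars F))

variable {F R₀ R₁ R₀₁}

theorem unitCech_apply (a : R₀) (b : R₁) :
    unitCech F R₀ R₁ R₀₁ (a, b) = algebraMap R₀ R₀₁ a - algebraMap R₁ R₀₁ b := by
  simp [unitCech, sub_eq_add_neg]

theorem mem_ker_unitCech_iff (a : R₀) (b : R₁) :
    ((a, b) : R₀ × R₁) ∈ LinearMap.ker (unitCech F R₀ R₁ R₀₁) ↔
      algebraMap R₀ R₀₁ a = algebraMap R₁ R₀₁ b := by
  rw [LinearMap.mem_ker, unitCech_apply, sub_eq_zero]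

/-- `Ȟ⁰` of the unit datum is one-dimensional when it is finite-dimensional, `R₀` is a domain
and the base field is algebraically closed. -/
theorem finrank_ker_unitCech_eq_one [IsAlgClosed F] [IsDomain R₀]
    (hinj₁ : Function.Injective (algebraMap R₁ R₀₁))
    (hfin : Module.Finite F (LinearMap.ker (unitCech F R₀ R₁ R₀₁))) :
    Module.finrank F (LinearMap.ker (unitCech F R₀ R₁ R₀₁)) = 1 := by
  have h1mem : ((1, 1) : R₀ × R₁) ∈ LinearMap.ker (unitCech F R₀ R₁ R₀₁) := by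
    rw [mem_ker_unitCech_iff, map_one, map_one]
  have key : ∀ s : LinearMap.ker (unitCech F R₀ R₁ R₀₁),
      ∃ c : F, c • (⟨(1, 1), h1mem⟩ : LinearMap.ker (unitCech F R₀ R₁ R₀₁)) = s := by
    rintro ⟨⟨a, b⟩, hs⟩
    have hab : algebraMap R₀ R₀₁ a = algebraMap R₁ R₀₁ b := (mem_ker_unitCech_iff a b).mp hs
    let Φ : Polynomial F →ₗ[F] LinearMap.ker (unitCech F R₀ R₁ R₀₁) :=
      { toFun := fun p => ⟨((Polynomial.aeval a p, Polynomial.aeval b p) : R₀ × R₁), by
          rw [mem_ker_unitCech_iff, ← Polynomial.aeval_algebraMap_apply,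
            ← Polynomial.aeval_algebraMap_apply, hab]⟩
        map_add' := fun p q => by
          apply Subtype.ext
          show ((Polynomial.aeval a (p + q), Polynomial.aeval b (p + q)) : R₀ × R₁) =
            (Polynomial.aeval a p, Polynomial.aeval b p) +
              (Polynomial.aeval a q, Polynomial.aeval b q)
          rw [map_add, map_add, Prod.mk_add_mk]
        map_smul' := fun c p => by
          apply Subtype.ext
          show ((Polynomial.aeval a (c • p), Polynomial.aeval b (c • p)) : R₀ × R₁) =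
            c • ((Polynomial.aeval a p, Polynomial.aeval b p) : R₀ × R₁)
          rw [map_smul, map_smul, Prod.smul_mk] }
    have hΦ : ¬ Function.Injective Φ := fun hinj =>
      Polynomial.not_finite (R := F) (Module.Finite.of_injective Φ hinj)
    have hker : LinearMap.ker Φ ≠ ⊥ := fun h => hΦ (LinearMap.ker_eq_bot.mp h)
    obtain ⟨p, hp, hp0⟩ := (Submodule.ne_bot_iff _).mp hker
    have hpa : Polynomial.aeval a p = 0 := by
      have h2 : Φ p = 0 := hp
      have := congrArg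
        (fun s : LinearMap.ker (unitCech F R₀ R₁ R₀₁) => (s : R₀ × R₁).1) h2
      exact this
    obtain ⟨c, hc⟩ := exists_algebraMap_eq_of_isAlgebraic a ⟨p, hp0, hpa⟩
    refine ⟨c, Subtype.ext ?_⟩
    have hb : algebraMap F R₁ c = b := by
      apply hinj₁
      rw [← hab, ← hc, ← IsScalarTower.algebraMap_apply, ← IsScalarTower.algebraMap_apply]
    show c • ((1, 1) : R₀ × R₁) = (a, b)
    rw [Prod.smul_mk, Algebra.smul_def, Algebra.smul_def, mul_one, mul_one, hc, hb]
  have hne : (⟨(1, 1), h1mem⟩ : LinearMap.ker (unitCech F R₀ R₁ R₀₁)) ≠ 0 := by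
    intro h
    have := congrArg (fun s : LinearMap.ker (unitCech F R₀ R₁ R₀₁) => (s : R₀ × R₁).1) h
    exact one_ne_zero this
  exact finrank_eq_one _ hne key

end AbstractUnit

/-- `Ȟ⁰` of the unit datum over `k` is `k`. -/
theorem finrank_H0_unit_base [IsAlgClosed k] (hC : IsCurveChart k B₀ B₁ B₀₁ x y e) :
    Module.finrank k (GlueDatum.unit k (k ⊗[k] B₀) (k ⊗[k] B₁) (k ⊗[k] B₀₁)).H0 = 1 := by
  haveI := hC.isDomain₀
  haveI hdom : IsDomain (k ⊗[k] B₀) :=
    MulEquiv.isDomain B₀ (Algebra.TensorProduct.lid k B₀).toRingEquiv.toMulEquiv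
  have hfin : Module.Finite k
      (GlueDatum.unit k (k ⊗[k] B₀) (k ⊗[k] B₁) (k ⊗[k] B₀₁)).H0 :=
    finite_H0 hC (GlueDatum.unit k (k ⊗[k] B₀) (k ⊗[k] B₁) (k ⊗[k] B₀₁))
  have hinj₁ : Function.Injective (algebraMap (k ⊗[k] B₁) (k ⊗[k] B₀₁)) :=
    H250.r1_injective hC (GlueDatum.unit k (k ⊗[k] B₀) (k ⊗[k] B₁) (k ⊗[k] B₀₁))
  have hfin' : Module.Finite k
      (LinearMap.ker (unitCech k (k ⊗[k] B₀) (k ⊗[k] B₁) (k ⊗[k] B₀₁))) := hfin
  have key := finrank_ker_unitCech_eq_one hinj₁ hfin'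
  exact key

/-- D6-a. `Ȟ⁰(unit) = K`. -/
theorem finrank_H0_unit [IsAlgClosed k] (hC : IsCurveChart k B₀ B₁ B₀₁ x y e)
    (K : Type u) [Field K] [Algebra k K] :
    Module.finrank K (GlueDatum.unit K (K ⊗[k] B₀) (K ⊗[k] B₁) (K ⊗[k] B₀₁)).H0 = 1 := by
  rw [finrank_H0_eq_of_isBC hC (Algebra.ofId k K)
    (isBC_unit (B₀ := B₀) (B₁ := B₁) (B₀₁ := B₀₁) (Algebra.ofId k K))]
  exact finrank_H0_unit_base hC

/-- D6-b. `h¹(unit over K) = g`. -/
theorem finrank_H1_unit (hC : IsCurveChart k B₀ B₁ B₀₁ x y e)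
    (K : Type u) [Field K] [Algebra k K] :
    Module.finrank K (GlueDatum.unit K (K ⊗[k] B₀) (K ⊗[k] B₁) (K ⊗[k] B₀₁)).H1 =
      genus k B₀ B₁ B₀₁ := by
  rw [finrank_H1_eq_of_isBC hC (Algebra.ofId k K)
    (isBC_unit (B₀ := B₀) (B₁ := B₁) (B₀₁ := B₀₁) (Algebra.ofId k K))]
  rfl

/-- D6-c. `χ(G) = deg G + 1 - g`. -/
theorem euler_eq_degree [IsAlgClosed k] (hC : IsCurveChart k B₀ B₁ B₀₁ x y e)
    {K : Type u} [Field K] [Algebra k K] (G : CurveGD k B₀ B₁ B₀₁ K) :
    G.euler = G.degree + 1 - genus k B₀ B₁ B₀₁ := by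
  have h0 := finrank_H0_unit hC K
  have h1 := finrank_H1_unit hC K
  rw [GlueDatum.degree]
  have hu : (GlueDatum.unit K (K ⊗[k] B₀) (K ⊗[k] B₁) (K ⊗[k] B₀₁)).euler =
      1 - genus k B₀ B₁ B₀₁ := by
    rw [GlueDatum.euler, h0, h1]
    norm_num
  rw [hu]
  ring

/-- D6-d. Riemann inequality. -/
theorem riemann_inequality [IsAlgClosed k] (hC : IsCurveChart k B₀ B₁ B₀₁ x y e)
    {K : Type u} [Field K] [Algebra k K] (G : CurveGD k B₀ B₁ B₀₁ K) :
    G.degree + 1 - genus k B₀ B₁ B₀₁ ≤ Module.finrank K G.H0 := by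
  rw [← euler_eq_degree hC G, GlueDatum.euler]
  have : (0 : ℤ) ≤ Module.finrank K G.H1 := Int.natCast_nonneg _
  linarith

end Fermat.Agent.S25.H910
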