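import Mathlib

/-!
# S25 / block CECH / leaf E4 (helper910): McCoy / norm criterion

Let `R` be a commutative `A[X]`-algebra, finite free as an `A[X]`-module, and `f : R`.
If for every prime `p` of `A` the image of `f` in the fibre `κ(p) ⊗[A] R` is a nonzerodivisor,
then `f` is a nonzerodivisor on `R ⊗[A] M` for every `A`-module `M`, in particular on `R`,
and `R ⧸ (f)` is flat over `A`.
-/

set_option autoImplicit false

open Polynomial TensorProduct

namespace Fermat.Agent.S25.H910

section McCoyModule

variable {A : Type*} [CommRing A] {M : Type*} [AddCommGroup M] [Module A M]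

theorem polyModule_coeff_smul (a : A) (m : PolynomialModule A M) (j : ℕ) :
    (a • m).coeff j = a • m.coeff j := rfl

theorem polyModule_C_smul (a : A) (m : PolynomialModule A M) :
    (C a : A[X]) • m = a • m := by
  rw [← Polynomial.algebraMap_eq (R := A), algebraMap_smul]

theorem polyModule_smul_comm (d : A[X]) (a : A) (m : PolynomialModule A M) :
    d • (a • m) = a • (d • m) := by
  rw [← polyModule_C_smul, ← polyModule_C_smul, smul_smul, smul_smul, mul_comm]

/-- **McCoy for modules**: a polynomial whose coefficients generate the unit ideal acts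
injectively on `M[X]`. -/
theorem polyModule_eq_zero_of_smul_eq_zero (d : A[X])
    (hd : Ideal.span (Set.range d.coeff) = ⊤) (m : PolynomialModule A M) (hdm : d • m = 0) :
    m = 0 := by
  suffices H : ∀ k : ℕ, ∀ m : PolynomialModule A M, (∀ j, k ≤ j → m.coeff j = 0) → d • m = 0 →
      m = 0 by
    obtain ⟨k, hk⟩ : ∃ k, ∀ j, k ≤ j → m.coeff j = 0 := by
      refine ⟨m.coeff.support.sup id + 1, fun j hj => ?_⟩
      by_contra h
      have : j ∈ m.coeff.support := Finsupp.mem_support_iff.mpr h
      have := Finset.le_sup (f := id) this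
      simp only [id] at this
      omega
    exact H k m hk hdm
  intro k
  induction k with
  | zero =>
    intro m hm _
    apply PolynomialModule.coeff_injective
    ext j
    simpa using hm j (Nat.zero_le j)
  | succ k ih =>
    intro m hm hdm
    have key : ∀ s i, d.natDegree < i + s → d.coeff i • m = 0 := by
      intro s
      induction s with
      | zero =>
        intro i hi
        rw [coeff_eq_zero_of_natDegree_lt (by simpa using hi), zero_smul]
      | succ s ihs =>
        intro i hi
        have hgt : ∀ i', i < i' → d.coeff i' • m = 0 := fun i' hi' => ihs i' (by omega)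
        have hc : (d • m).coeff (i + k) = d.coeff i • m.coeff k := by
          rw [PolynomialModule.smul_apply]
          rw [Finset.sum_eq_single (i, k)]
          · rintro ⟨a, b⟩ hab hne
            rw [Finset.HasAntidiagonal.mem_antidiagonal] at hab
            simp only at hab
            rcases lt_trichotomy a i with h | h | h
            · have hb : k + 1 ≤ b := by omega
              simp only
              rw [hm b hb, smul_zero]
            · exfalso
              apply hne
              have : b = k := by omega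
              rw [h, this]
            · have h1 := hgt a h
              have h2 := congrArg (fun x => PolynomialModule.coeff x b) h1
              simpa [polyModule_coeff_smul] using h2
          · intro h
            exact absurd (Finset.HasAntidiagonal.mem_antidiagonal.mpr (rfl : (i, k).1 + (i, k).2 = i + k)) h
        have h0 : d.coeff i • m.coeff k = 0 := by
          rw [← hc, hdm]; rfl
        have hm' : ∀ j, k ≤ j → (d.coeff i • m).coeff j = 0 := by
          intro j hj
          rw [polyModule_coeff_smul]
          rcases Nat.eq_or_lt_of_le hj with h | hlt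
          · rw [← h]; exact h0
          · rw [hm j hlt, smul_zero]
        have hdm' : d • (d.coeff i • m) = 0 := by
          rw [polyModule_smul_comm, hdm, smul_zero]
        exact ih (d.coeff i • m) hm' hdm'
    have hall : ∀ i, d.coeff i • m = 0 := fun i => key (d.natDegree + 1) i (by omega)
    -- the annihilator of `m` contains all coefficients, hence `1`
    let I : Ideal A := LinearMap.ker (LinearMap.toSpanSingleton A (PolynomialModule A M) m)
    have hI : Ideal.span (Set.range d.coeff) ≤ I := by
      rw [Ideal.span_le]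
      rintro _ ⟨i, rfl⟩
      show LinearMap.toSpanSingleton A (PolynomialModule A M) m (d.coeff i) = 0
      simpa using hall i
    have h1 : (1 : A) ∈ I := hI (hd ▸ Submodule.mem_top)
    have : LinearMap.toSpanSingleton A (PolynomialModule A M) m 1 = 0 := h1
    simpa using this

/-- the same on `A[X] ⊗[A] M` -/
theorem polyTensor_eq_zero_of_smul_eq_zero (d : A[X])
    (hd : Ideal.span (Set.range d.coeff) = ⊤) (z : A[X] ⊗[A] M) (hz : d • z = 0) : z = 0 := by
  let e := PolynomialModule.polynomialTensorProductLEquivPolynomialModule A M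
  have h1 : d • e z = 0 := by rw [← map_smul, hz, map_zero]
  have h2 := polyModule_eq_zero_of_smul_eq_zero d hd (e z) h1
  exact e.injective (by rw [h2, map_zero])

end McCoyModule

section Norm

variable {A : Type*} [CommRing A] {R : Type*} [CommRing R] [Algebra A[X] R]
  [Module.Free A[X] R] [Module.Finite A[X] R]

/-- the adjugate of multiplication by `f` -/
theorem exists_adjugate (f : R) :
    ∃ g : R →ₗ[A[X]] R, ∀ z, g (f * z) = Algebra.norm A[X] f • z := by
  classical
  let b := Module.Free.chooseBasis A[X] R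
  let F := Algebra.leftMulMatrix b f
  refine ⟨Matrix.toLin b b F.adjugate, fun z => ?_⟩
  have h1 : f * z = Matrix.toLin b b F z := by
    simp only [F, Algebra.leftMulMatrix_apply, Matrix.toLin_toMatrix]
    rfl
  rw [h1, ← LinearMap.comp_apply, ← Matrix.toLin_mul, Matrix.adjugate_mul, map_smul,
    Matrix.toLin_one, Algebra.norm_eq_matrix_det b]
  rfl

variable [Algebra A R] [IsScalarTower A A[X] R]
variable {M : Type*} [AddCommGroup M] [Module A M]

omit [Module.Finite A[X] R] in
/-- a primitive polynomial acts injectively on `R ⊗[A] M` -/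
theorem tensor_eq_zero_of_polySmul_eq_zero (d : A[X])
    (hd : Ideal.span (Set.range d.coeff) = ⊤) (z : R ⊗[A] M) (hz : d • z = 0) : z = 0 := by
  let N := A[X] ⊗[A] M
  let μ : N →ₗ[A[X]] N := d • LinearMap.id
  have hμ : Function.Injective μ := by
    rw [injective_iff_map_eq_zero]
    intro x hx
    exact polyTensor_eq_zero_of_smul_eq_zero d hd x hx
  have h2 : Function.Injective (LinearMap.lTensor R μ) :=
    Module.Flat.lTensor_preserves_injective_linearMap μ hμ
  have h3 : LinearMap.lTensor R μ = d • LinearMap.id := by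
    simp only [μ, LinearMap.lTensor_smul, LinearMap.lTensor_id]
  let e := TensorProduct.AlgebraTensorModule.cancelBaseChange A A[X] A[X] R M
  have h4 : d • e.symm z = 0 := by rw [← map_smul, hz, map_zero]
  have h5 : e.symm z = 0 := by
    apply h2
    rw [h3, map_zero]
    exact h4
  exact e.symm.injective (by rw [h5, map_zero])

/-- **E4, module form**: if the norm of `f` is a primitive polynomial, `f` acts injectively on
`R ⊗[A] M` for every `A`-module `M`. -/
theorem tensor_eq_zero_of_smul_eq_zero (f : R)
    (hd : Ideal.span (Set.range (Algebra.norm A[X] f).coeff) = ⊤) (z : R ⊗[A] M)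
    (hz : f • z = 0) : z = 0 := by
  obtain ⟨g, hg⟩ := exists_adjugate (A := A) f
  let G : R ⊗[A] M →ₗ[A[X]] R ⊗[A] M := TensorProduct.AlgebraTensorModule.map g LinearMap.id
  have hG : ∀ w : R ⊗[A] M, G (f • w) = Algebra.norm A[X] f • w := by
    intro w
    induction w using TensorProduct.induction_on with
    | zero => simp
    | tmul r m =>
      simp only [G, TensorProduct.smul_tmul', smul_eq_mul,
        TensorProduct.AlgebraTensorModule.map_tmul, hg, LinearMap.id_apply]
    | add x y hx hy => rw [smul_add, map_add, hx, hy, smul_add]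
  apply tensor_eq_zero_of_polySmul_eq_zero _ hd
  rw [← hG, hz, map_zero]

omit [Algebra A[X] R] [Module.Free A[X] R] [Module.Finite A[X] R] [IsScalarTower A A[X] R] in
theorem rTensor_mulLeft_apply (f : R) (w : R ⊗[A] M) :
    LinearMap.rTensor M (LinearMap.mulLeft A f) w = f • w := by
  induction w using TensorProduct.induction_on with
  | zero => simp
  | tmul r m => simp [TensorProduct.smul_tmul']
  | add x y hx hy => rw [map_add, hx, hy, smul_add]

/-- **E4, part 1**: `f` is a nonzerodivisor. -/
theorem mem_nonZeroDivisors_of_norm_primitive (f : R)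
    (hd : Ideal.span (Set.range (Algebra.norm A[X] f).coeff) = ⊤) : f ∈ nonZeroDivisors R := by
  rw [mem_nonZeroDivisors_iff_right]
  intro r hr
  let e := TensorProduct.AlgebraTensorModule.rid A R R
  have h1 : f • e.symm r = 0 := by
    rw [← map_smul, smul_eq_mul, mul_comm, hr, map_zero]
  have h2 := tensor_eq_zero_of_smul_eq_zero (A := A) f hd (e.symm r) h1
  exact e.symm.injective (by rw [h2, map_zero])

/-- **E4, part 2**: `R ⧸ (f)` is flat over `A`. -/
theorem flat_quotient_of_norm_primitive (f : R)
    (hd : Ideal.span (Set.range (Algebra.norm A[X] f).coeff) = ⊤) :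
    Module.Flat A (R ⧸ Ideal.span {f}) := by
  have : Module.Flat A R := Module.Flat.trans A A[X] R
  set Q := R ⧸ Ideal.span {f}
  let π : R →ₗ[A] Q := (Ideal.Quotient.mkₐ A (Ideal.span {f})).toLinearMap
  let φ : R →ₗ[A] R := LinearMap.mulLeft A f
  have hπ : Function.Surjective π := Ideal.Quotient.mkₐ_surjective A _
  have hex : Function.Exact φ π := by
    intro x
    constructor
    · intro hx
      have : x ∈ Ideal.span {f} := Ideal.Quotient.eq_zero_iff_mem.mp hx
      obtain ⟨a, rfl⟩ := Ideal.mem_span_singleton'.mp this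
      exact ⟨a, mul_comm _ _⟩
    · rintro ⟨y, rfl⟩
      exact Ideal.Quotient.eq_zero_iff_mem.mpr
        (Ideal.mul_mem_right _ _ (Ideal.subset_span rfl))
  rw [Module.Flat.iff_lTensor_preserves_injective_linearMap]
  intro N N' _ _ _ _ j hj
  rw [injective_iff_map_eq_zero]
  intro z hz
  -- lift `z`
  obtain ⟨z', rfl⟩ := LinearMap.rTensor_surjective N hπ z
  have hexN := rTensor_exact N hex hπ
  have hexN' := rTensor_exact N' hex hπ
  -- the image of `z'` in `R ⊗ N'` is divisible by `f`
  have h1 : LinearMap.rTensor N' π (LinearMap.lTensor R j z') = 0 := by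
    rw [← LinearMap.comp_apply, LinearMap.rTensor_comp_lTensor, ← LinearMap.lTensor_comp_rTensor,
      LinearMap.comp_apply, hz]
  obtain ⟨w, hw⟩ := (hexN' _).mp h1
  -- pass to the cokernel of `j`
  let q := (LinearMap.range j).mkQ
  have hq : Function.Surjective q := Submodule.mkQ_surjective _
  have hexj : Function.Exact j q := by
    intro x
    rw [Submodule.mkQ_apply, Submodule.Quotient.mk_eq_zero]
    rfl
  have hexR := lTensor_exact R hexj hq
  have h2 : f • (LinearMap.lTensor R q w) = 0 := by
    rw [← rTensor_mulLeft_apply, ← LinearMap.comp_apply, LinearMap.rTensor_comp_lTensor,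
      ← LinearMap.lTensor_comp_rTensor, LinearMap.comp_apply, hw]
    exact (hexR _).mpr ⟨z', rfl⟩
  have h3 := tensor_eq_zero_of_smul_eq_zero (A := A) f hd _ h2
  obtain ⟨u, hu⟩ := (hexR _).mp h3
  -- `z' = f • u`
  have h4 : LinearMap.lTensor R j (z' - LinearMap.rTensor N φ u) = 0 := by
    rw [map_sub, ← LinearMap.comp_apply (LinearMap.lTensor R j), LinearMap.lTensor_comp_rTensor,
      ← LinearMap.rTensor_comp_lTensor, LinearMap.comp_apply, hu, hw, sub_self]
  have h5 : z' = LinearMap.rTensor N φ u := by
    have := (Module.Flat.lTensor_preserves_injective_linearMap (M := R) j hj)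
    have h6 := this (h4.trans (map_zero _).symm)
    exact sub_eq_zero.mp h6
  rw [h5]
  exact (hexN _).mpr ⟨u, rfl⟩

end Norm

section Fibre

variable {A : Type*} [CommRing A] {R : Type*} [CommRing R] [Algebra A[X] R]
  [Module.Free A[X] R] [Module.Finite A[X] R] [Algebra A R] [IsScalarTower A A[X] R]

/-- Key lemma: if `f` is regular on the fibre `R ⊗[A] K` over a field `K`, the norm of `f`
does not vanish in `K[X]`. -/
theorem exists_coeff_norm_ne_zero_of_isSMulRegular (K : Type*) [Field K] [Algebra A K]
    (f : R) (hf : IsSMulRegular (R ⊗[A] K) f) :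
    ∃ i, algebraMap A K ((Algebra.norm A[X] f).coeff i) ≠ 0 := by
  by_contra hcon
  push Not at hcon
  set d := Algebra.norm A[X] f with hd
  -- `S ≅ K[X]` is a domain
  let eS : (A[X] ⊗[A] K) ≃+* K[X] :=
    ((Algebra.TensorProduct.comm A A[X] K).trans (polyEquivTensor A K).symm).toRingEquiv
  have : IsDomain (A[X] ⊗[A] K) := MulEquiv.isDomain K[X] eS.toMulEquiv
  -- the image of `d` in `S` vanishes
  have hdS : algebraMap A[X] (A[X] ⊗[A] K) d = 0 := by
    rw [Algebra.TensorProduct.algebraMap_apply, Algebra.algebraMap_self_apply,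
      d.as_sum_range_C_mul_X_pow, TensorProduct.sum_tmul]
    refine Finset.sum_eq_zero fun i _ => ?_
    rw [← Polynomial.smul_eq_C_mul, TensorProduct.smul_tmul, Algebra.smul_def, mul_one, hcon i,
      TensorProduct.tmul_zero]
  -- so the base-changed multiplication has a nonzero kernel
  let Φ : R →ₗ[A[X]] R := Algebra.lmul A[X] R f
  have hdet := LinearMap.det_baseChange (A := A[X] ⊗[A] K) Φ
  rw [← Algebra.norm_apply, hdS] at hdet
  have hker := LinearMap.bot_lt_ker_of_det_eq_zero hdet
  obtain ⟨z, hz, hz0⟩ := SetLike.exists_of_lt hker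
  have hz0' : z ≠ 0 := by simpa using hz0
  have hz' : Φ.baseChange (A[X] ⊗[A] K) z = 0 := hz
  -- transport to `R ⊗[A] K`
  let c : (A[X] ⊗[A] K) ⊗[A[X]] R ≃ₗ[A[X]] R ⊗[A[X]] (A[X] ⊗[A] K) :=
    TensorProduct.comm A[X] (A[X] ⊗[A] K) R
  let e : R ⊗[A[X]] (A[X] ⊗[A] K) ≃ₗ[R] R ⊗[A] K :=
    TensorProduct.AlgebraTensorModule.cancelBaseChange A A[X] R R K
  have hc : ∀ w : (A[X] ⊗[A] K) ⊗[A[X]] R,
      c (Φ.baseChange (A[X] ⊗[A] K) w) = f • c w := by
    intro w
    induction w using TensorProduct.induction_on with
    | zero => simp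
    | tmul s r =>
      simp only [c, Φ, LinearMap.baseChange_tmul, TensorProduct.comm_tmul,
        TensorProduct.smul_tmul', smul_eq_mul]
      rfl
    | add x y hx hy => rw [map_add, map_add, hx, hy, map_add, smul_add]
  have h1 : f • e (c z) = 0 := by
    rw [← map_smul, ← hc, hz', map_zero, map_zero]
  have h2 : e (c z) = 0 := hf (show f • e (c z) = f • (0 : R ⊗[A] K) by rw [h1, smul_zero])
  exact hz0' (c.injective (e.injective (by rw [h2, map_zero, map_zero])))

/-- If `f` is regular on every residue-field fibre, its norm is primitive. -/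
theorem norm_primitive_of_fibres (f : R)
    (H : ∀ (p : Ideal A) [p.IsPrime], IsSMulRegular (R ⊗[A] p.ResidueField) f) :
    Ideal.span (Set.range (Algebra.norm A[X] f).coeff) = ⊤ := by
  by_contra hne
  obtain ⟨m, hm, hle⟩ := Ideal.exists_le_maximal _ hne
  have : m.IsPrime := hm.isPrime
  obtain ⟨i, hi⟩ := exists_coeff_norm_ne_zero_of_isSMulRegular (A := A) m.ResidueField f (H m)
  apply hi
  rw [Ideal.algebraMap_residueField_eq_zero]
  exact hle (Ideal.subset_span ⟨i, rfl⟩)

/-- **E4 (McCoy / norm criterion).**  Let `R` be a finite free `A[X]`-algebra and `f : R`.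
If `f` is a nonzerodivisor on every residue-field fibre `R ⊗[A] κ(p)`, then `f` is a
nonzerodivisor on `R ⊗[A] M` for every `A`-module `M`. -/
theorem tensor_eq_zero_of_smul_eq_zero_of_fibres (f : R)
    (H : ∀ (p : Ideal A) [p.IsPrime], IsSMulRegular (R ⊗[A] p.ResidueField) f)
    {M : Type*} [AddCommGroup M] [Module A M] (z : R ⊗[A] M) (hz : f • z = 0) : z = 0 :=
  tensor_eq_zero_of_smul_eq_zero (A := A) f (norm_primitive_of_fibres f H) z hz

/-- **E4.**  Under the fibre hypothesis, `f` is a nonzerodivisor of `R`. -/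
theorem mem_nonZeroDivisors_of_fibres (f : R)
    (H : ∀ (p : Ideal A) [p.IsPrime], IsSMulRegular (R ⊗[A] p.ResidueField) f) :
    f ∈ nonZeroDivisors R :=
  mem_nonZeroDivisors_of_norm_primitive (A := A) f (norm_primitive_of_fibres f H)

/-- **E4.**  Under the fibre hypothesis, `R ⧸ (f)` is flat over `A`. -/
theorem flat_quotient_of_fibres (f : R)
    (H : ∀ (p : Ideal A) [p.IsPrime], IsSMulRegular (R ⊗[A] p.ResidueField) f) :
    Module.Flat A (R ⧸ Ideal.span {f}) :=
  flat_quotient_of_norm_primitive (A := A) f (norm_primitive_of_fibres f H)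

omit [Algebra A[X] R] [Module.Free A[X] R] [Module.Finite A[X] R] [IsScalarTower A A[X] R] in
/-- Conversion: a nonzerodivisor `f ⊗ 1` of `R ⊗[A] K` acts regularly. -/
theorem isSMulRegular_of_tmul_one_mem_nonZeroDivisors (K : Type*) [CommRing K] [Algebra A K]
    (f : R) (h : (f ⊗ₜ[A] (1 : K)) ∈ nonZeroDivisors (R ⊗[A] K)) :
    IsSMulRegular (R ⊗[A] K) f := by
  intro x y hxy
  have hxy' : f • x = f • y := hxy
  rw [Algebra.smul_def, Algebra.smul_def, Algebra.TensorProduct.algebraMap_apply,
    Algebra.algebraMap_self_apply] at hxy'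
  have h0 : (f ⊗ₜ[A] (1 : K)) * (x - y) = 0 := by rw [mul_sub, hxy', sub_self]
  exact sub_eq_zero.mp ((mem_nonZeroDivisors_iff.mp h).1 _ h0)

omit [Algebra A[X] R] [Module.Free A[X] R] [Module.Finite A[X] R] [IsScalarTower A A[X] R] in
/-- Conversion: a nonzerodivisor `1 ⊗ f` of `K ⊗[A] R` acts regularly on `R ⊗[A] K`. -/
theorem isSMulRegular_of_one_tmul_mem_nonZeroDivisors (K : Type*) [CommRing K] [Algebra A K]
    (f : R) (h : ((1 : K) ⊗ₜ[A] f) ∈ nonZeroDivisors (K ⊗[A] R)) :
    IsSMulRegular (R ⊗[A] K) f := by
  apply isSMulRegular_of_tmul_one_mem_nonZeroDivisors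
  rw [mem_nonZeroDivisors_iff] at h ⊢
  have key : ∀ x : R ⊗[A] K, (f ⊗ₜ[A] (1 : K)) * x = 0 → x = 0 := by
    intro x hx
    have h1 : ((1 : K) ⊗ₜ[A] f) * (Algebra.TensorProduct.comm A R K x) = 0 := by
      have := congrArg (Algebra.TensorProduct.comm A R K) hx
      rwa [map_mul, map_zero, Algebra.TensorProduct.comm_tmul] at this
    have h2 := h.1 _ h1
    exact (Algebra.TensorProduct.comm A R K).injective (by rw [h2, map_zero])
  exact ⟨key, fun x hx => key x (by rwa [mul_comm])⟩

/-- **E4, packaged.**  `R` finite free over `A[X]`, `f : R` whose image `1 ⊗ f` in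
`κ(p) ⊗[A] R` is a nonzerodivisor for every prime `p` of `A`.  Then `f` is a nonzerodivisor
of `R` and `R ⧸ (f)` is flat over `A`. -/
theorem mcCoy_norm_criterion (f : R)
    (H : ∀ (p : Ideal A) [p.IsPrime],
      ((1 : p.ResidueField) ⊗ₜ[A] f) ∈ nonZeroDivisors (p.ResidueField ⊗[A] R)) :
    f ∈ nonZeroDivisors R ∧ Module.Flat A (R ⧸ Ideal.span {f}) := by
  have H' : ∀ (p : Ideal A) [p.IsPrime], IsSMulRegular (R ⊗[A] p.ResidueField) f :=
    fun p _ => isSMulRegular_of_one_tmul_mem_nonZeroDivisors (A := A) p.ResidueField f (H p)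
  exact ⟨mem_nonZeroDivisors_of_fibres f H', flat_quotient_of_fibres f H'⟩

/-- **E4, packaged (other side).**  Same with `f ⊗ 1 ∈ R ⊗[A] κ(p)`. -/
theorem mcCoy_norm_criterion' (f : R)
    (H : ∀ (p : Ideal A) [p.IsPrime],
      (f ⊗ₜ[A] (1 : p.ResidueField)) ∈ nonZeroDivisors (R ⊗[A] p.ResidueField)) :
    f ∈ nonZeroDivisors R ∧ Module.Flat A (R ⧸ Ideal.span {f}) := by
  have H' : ∀ (p : Ideal A) [p.IsPrime], IsSMulRegular (R ⊗[A] p.ResidueField) f :=
    fun p _ => isSMulRegular_of_tmul_one_mem_nonZeroDivisors (A := A) p.ResidueField f (H p)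
  exact ⟨mem_nonZeroDivisors_of_fibres f H', flat_quotient_of_fibres f H'⟩

end Fibre

end Fermat.Agent.S25.H910
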